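import Fermat.Agent.X0Fld.Cusp

/-!
# Orders of expansions at `i∞` and behaviour at `i∞` (package FLD)
-/

set_option autoImplicit false

open UpperHalfPlane ModularForm CongruenceSubgroup
open scoped MatrixGroups Manifold

namespace Fermat.Agent.X0Fld

/-- `Δ` is `N`-periodic. -/
theorem cuspOrder_discriminant_vadd (N : ℕ) (z : ℍ) :
    discriminant ((N : ℝ) +ᵥ z) = discriminant z := by
  have h1 : ((N : ℝ)) ∈ (𝒮ℒ).strictPeriods := by
    have := nsmul_mem one_mem_strictPeriods_SL N
    simpa using this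
  exact SlashInvariantForm.vAdd_apply_of_mem_strictPeriods CuspForm.discriminant z h1

/-- a function on `ℍ` invariant under `z ↦ z + N` gives an `N`-periodic function on `ℂ`. -/
theorem cuspOrder_periodic_comp_ofComplex (N : ℕ) (F : ℍ → ℂ)
    (hF : ∀ z : ℍ, F ((N : ℝ) +ᵥ z) = F z) :
    Function.Periodic (F ∘ ofComplex) (N : ℝ) := by
  intro w
  by_cases hw : 0 < Complex.im w
  · have : 0 < Complex.im (w + (N : ℝ)) := by simp [hw]
    simp only [Function.comp_apply, ofComplex_apply_of_im_pos this, ofComplex_apply_of_im_pos hw]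
    rw [← hF ⟨w, hw⟩]
    congr 1
    ext
    simp [add_comm]
  · have hw' : Complex.im w ≤ 0 := not_lt.mp hw
    have : Complex.im (w + ((N : ℝ) : ℂ)) ≤ 0 := by simpa using hw'
    simp only [Function.comp_apply]
    rw [ofComplex_apply_eq_of_im_nonpos this hw']

/-- the functions `h * Δ ^ m`, `h ∈ B N`, are `N`-periodic -/
theorem cuspOrder_periodic (N : ℕ) (h : B N) (m : ℕ) :
    Function.Periodic ((fun z : ℍ => (h : ℍ → ℂ) z * discriminant z ^ m) ∘ ofComplex) (N : ℝ) := by
  apply cuspOrder_periodic_comp_ofComplex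
  intro z
  show (h : ℍ → ℂ) ((N : ℝ) +ᵥ z) * discriminant ((N : ℝ) +ᵥ z) ^ m = _
  rw [periodic_of_mem_B, cuspOrder_discriminant_vadd]

theorem cuspOrder_mdiff (N : ℕ) (h : B N) (m : ℕ) :
    MDiff (fun z : ℍ => (h : ℍ → ℂ) z * discriminant z ^ m) :=
  h.2.mdiff.mul (mdiff_discriminant.pow m)

/-- An `N`-periodic holomorphic function bounded at `i∞` tends to the constant coefficient of
its `q`-expansion. -/
theorem cuspOrder_tendsto_coeff_zero (N : ℕ) [NeZero N] (F : ℍ → ℂ)
    (hper : Function.Periodic (F ∘ ofComplex) (N : ℝ)) (hmd : MDiff F)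
    (hbd : IsBoundedAtImInfty F) :
    Filter.Tendsto F atImInfty (nhds ((qExpansion (N : ℝ) F).coeff 0)) := by
  have hN : (0 : ℝ) < N := Nat.cast_pos.mpr (NeZero.pos N)
  have han := analyticAt_cuspFunction_zero hN hper hmd hbd
  have hc : (qExpansion (N : ℝ) F).coeff 0 = cuspFunction (N : ℝ) F 0 := by
    simp [qExpansion_coeff]
  rw [hc]
  have : (cuspFunction (N : ℝ) F ∘ fun τ : ℍ ↦ Function.Periodic.qParam (N : ℝ) τ : ℍ → ℂ) = F := by
    funext τ
    simpa using eq_cuspFunction τ hN.ne' hper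
  have h2 := han.continuousAt.tendsto.comp (qParam_tendsto_atImInfty hN)
  rwa [this] at h2

theorem cuspOrder_ofPowerSeries_ne_zero (p : PowerSeries ℂ) (hp : p ≠ 0) :
    HahnSeries.ofPowerSeries ℤ ℂ p ≠ 0 := by
  intro h
  exact hp (HahnSeries.ofPowerSeries_injective (by rw [h, map_zero]))

/-- the order of a power series viewed as a Laurent series is nonnegative -/
theorem cuspOrder_order_ofPowerSeries_nonneg (p : PowerSeries ℂ) :
    0 ≤ (HahnSeries.ofPowerSeries ℤ ℂ p).order := by
  by_cases hp : p = 0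
  · rw [hp, map_zero, HahnSeries.order_zero]
  have h1 : (HahnSeries.ofPowerSeries ℤ ℂ p).coeff (HahnSeries.ofPowerSeries ℤ ℂ p).order ≠ 0 :=
    fun h => cuspOrder_ofPowerSeries_ne_zero p hp (HahnSeries.coeff_order_eq_zero.mp h)
  by_contra hlt
  apply h1
  rw [PowerSeries.coeff_coe, if_pos (not_le.mp hlt)]

/-- order of a nonzero power series with vanishing constant coefficient, viewed as a Laurent
series -/
theorem cuspOrder_order_ofPowerSeries_pos (p : PowerSeries ℂ) (hp : p ≠ 0)
    (h0 : p.coeff 0 = 0) : 0 < (HahnSeries.ofPowerSeries ℤ ℂ p).order := by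
  have h1 : (HahnSeries.ofPowerSeries ℤ ℂ p).coeff (HahnSeries.ofPowerSeries ℤ ℂ p).order ≠ 0 :=
    fun h => cuspOrder_ofPowerSeries_ne_zero p hp (HahnSeries.coeff_order_eq_zero.mp h)
  rcases lt_or_eq_of_le (cuspOrder_order_ofPowerSeries_nonneg p) with h | h
  · exact h
  · exfalso
    rw [← h] at h1
    apply h1
    have := HahnSeries.ofPowerSeries_apply_coeff (Γ := ℤ) p 0
    simpa [h0] using this

theorem cuspOrder_order_ofPowerSeries_zero (p : PowerSeries ℂ)
    (h0 : p.coeff 0 ≠ 0) : (HahnSeries.ofPowerSeries ℤ ℂ p).order = 0 := by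
  refine le_antisymm ?_ (cuspOrder_order_ofPowerSeries_nonneg p)
  apply HahnSeries.order_le_of_coeff_ne_zero
  have := HahnSeries.ofPowerSeries_apply_coeff (Γ := ℤ) p 0
  rw [Nat.cast_zero] at this
  rw [this]
  exact h0

/-- the basic order relation: if `h * Δ ^ m` is bounded at `i∞` and nonzero, then
`order (TinfB N h) + m N` is the order of the `q`-expansion of `h * Δ ^ m`. -/
theorem cuspOrder_order_add (N : ℕ) [NeZero N] (h : B N) (m : ℕ)
    (hm : IsBoundedAtImInfty (fun z : ℍ => (h : ℍ → ℂ) z * discriminant z ^ m))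
    (hP : qExpansion (N : ℝ) (fun z : ℍ => (h : ℍ → ℂ) z * discriminant z ^ m) ≠ 0) :
    (TinfB N h).order + (m : ℤ) * N = (HahnSeries.ofPowerSeries ℤ ℂ
      (qExpansion (N : ℝ) (fun z : ℍ => (h : ℍ → ℂ) z * discriminant z ^ m))).order := by
  have hspec := TinfB_spec N h m hm
  have hne := cuspOrder_ofPowerSeries_ne_zero _ hP
  have hT : TinfB N h ≠ 0 := by
    intro h0
    rw [h0, zero_mul] at hspec
    exact hne hspec.symm
  rw [← hspec, HahnSeries.order_mul hT (pow_ne_zero m (deltaL_ne_zero N)), HahnSeries.order_pow,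
    order_deltaL, nsmul_eq_mul]

theorem cuspOrder_qExpansion_ne_zero (N : ℕ) [NeZero N] (h : B N) (hne : h ≠ 0) (m : ℕ)
    (hm : IsBoundedAtImInfty (fun z : ℍ => (h : ℍ → ℂ) z * discriminant z ^ m)) :
    qExpansion (N : ℝ) (fun z : ℍ => (h : ℍ → ℂ) z * discriminant z ^ m) ≠ 0 := by
  have hN : (0 : ℝ) < N := Nat.cast_pos.mpr (NeZero.pos N)
  intro h0
  rw [qExpansion_eq_zero_iff hN (cuspOrder_periodic N h m) (cuspOrder_mdiff N h m) hm] at h0
  apply hne
  apply Subtype.ext
  funext z
  have := congrFun h0 z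
  simp only [Pi.zero_apply, mul_eq_zero] at this
  rcases this with h1 | h1
  · simpa using h1
  · exact absurd h1 (pow_ne_zero m (discriminant_ne_zero z))

/-- If `h * Δ ^ m` tends to `0` at `i∞`, the order of the expansion of `h` exceeds `-m N`. -/
theorem lt_order_TinfB (N : ℕ) [NeZero N] (h : B N) (hne : h ≠ 0) (m : ℕ)
    (hm : IsZeroAtImInfty (fun z : ℍ => (h : ℍ → ℂ) z * discriminant z ^ m)) :
    -((m : ℤ) * N) < (TinfB N h).order := by
  have hbd : IsBoundedAtImInfty (fun z : ℍ => (h : ℍ → ℂ) z * discriminant z ^ m) :=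
    hm.boundedAtFilter
  have hP := cuspOrder_qExpansion_ne_zero N h hne m hbd
  have hlim := cuspOrder_tendsto_coeff_zero N _ (cuspOrder_periodic N h m)
    (cuspOrder_mdiff N h m) hbd
  have h0 := tendsto_nhds_unique hlim hm
  have hpos := cuspOrder_order_ofPowerSeries_pos _ hP h0
  have := cuspOrder_order_add N h m hbd hP
  linarith

/-- If `h * Δ ^ m` tends to a nonzero limit at `i∞`, the order of the expansion of `h` is `-m N`. -/
theorem order_TinfB_eq (N : ℕ) [NeZero N] (h : B N) (m : ℕ) (c : ℂ) (hc : c ≠ 0)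
    (hm : Filter.Tendsto (fun z : ℍ => (h : ℍ → ℂ) z * discriminant z ^ m) atImInfty (nhds c)) :
    (TinfB N h).order = -((m : ℤ) * N) := by
  have hbd : IsBoundedAtImInfty (fun z : ℍ => (h : ℍ → ℂ) z * discriminant z ^ m) :=
    hm.isBigO_one ℝ
  have hlim := cuspOrder_tendsto_coeff_zero N _ (cuspOrder_periodic N h m)
    (cuspOrder_mdiff N h m) hbd
  have h0 := tendsto_nhds_unique hlim hm
  have hc0 : (qExpansion (N : ℝ) (fun z : ℍ => (h : ℍ → ℂ) z * discriminant z ^ m)).coeff 0 ≠ 0 := by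
    rw [h0]; exact hc
  have hP : qExpansion (N : ℝ) (fun z : ℍ => (h : ℍ → ℂ) z * discriminant z ^ m) ≠ 0 := by
    intro hz
    rw [hz] at hc0
    simp at hc0
  have hz := cuspOrder_order_ofPowerSeries_zero _ hc0
  have := cuspOrder_order_add N h m hbd hP
  linarith

/-- Conversely: a function in `B N` whose expansion at `i∞` has positive order tends to `0`;
more generally with a factor `Δ ^ m`. -/
theorem isZeroAtImInfty_of_lt_order (N : ℕ) [NeZero N] (h : B N) (m : ℕ)
    (hm : IsBoundedAtImInfty (fun z : ℍ => (h : ℍ → ℂ) z * discriminant z ^ m))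
    (ho : -((m : ℤ) * N) < (TinfB N h).order) :
    IsZeroAtImInfty (fun z : ℍ => (h : ℍ → ℂ) z * discriminant z ^ m) := by
  by_cases hne : h = 0
  · subst hne
    have : (fun z : ℍ => ((0 : B N) : ℍ → ℂ) z * discriminant z ^ m) = fun _ => (0 : ℂ) := by
      funext z
      simp
    rw [this]
    exact tendsto_const_nhds
  have hP := cuspOrder_qExpansion_ne_zero N h hne m hm
  have hlim := cuspOrder_tendsto_coeff_zero N _ (cuspOrder_periodic N h m)
    (cuspOrder_mdiff N h m) hm
  have hadd := cuspOrder_order_add N h m hm hP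
  have h0 : (qExpansion (N : ℝ) (fun z : ℍ => (h : ℍ → ℂ) z * discriminant z ^ m)).coeff 0 = 0 := by
    by_contra hc0
    have hz := cuspOrder_order_ofPowerSeries_zero _ hc0
    linarith
  rw [h0] at hlim
  exact hlim

end Fermat.Agent.X0Fld
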