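import Fermat.Agent.X0Fld.Action
import Fermat.Agent.X0L1.Main

/-!
# The fixed field of `SL(2,ℤ)` in the field of modular functions is `ℂ(j)` (package FLD)
-/

set_option autoImplicit false

open UpperHalfPlane ModularForm CongruenceSubgroup
open scoped MatrixGroups Manifold IntermediateField

namespace Fermat.Agent.X0Fld

/-- `E₄ ^ 3` is bounded at `i∞`. -/
theorem fixed_bdd_E₄_cube : IsBoundedAtImInfty (fun z : ℍ => E₄ z ^ 3) := by
  have h1 : IsBoundedAtImInfty (fun z : ℍ => E₄ z) :=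
    X0L1.tendsto_E₄_atImInfty.isBigO_one ℝ
  have h3 := (h1.mul h1).mul h1
  refine h3.congr' (Filter.Eventually.of_forall fun z => ?_) (Filter.EventuallyEq.refl _ _)
  simp only [Pi.mul_apply]
  ring

theorem isWH_jFun (N : ℕ) : IsWH N X0L1.jFun where
  mdiff := X0L1.mdifferentiable_jFun
  inv := fun γ _ z => X0L1.jFun_smul γ z
  bdd := ⟨1, fun γ => by
    refine fixed_bdd_E₄_cube.congr' (Filter.Eventually.of_forall fun z => ?_)
      (Filter.EventuallyEq.refl _ _)
    show E₄ z ^ 3 = X0L1.jFun (γ • z) * discriminant z ^ 1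
    rw [X0L1.jFun_smul, pow_one, X0L1.jFun_mul_discriminant]⟩

/-- `j` as an element of `B N`. -/
noncomputable def jB (N : ℕ) : B N := ⟨X0L1.jFun, isWH_jFun N⟩

@[simp] theorem coe_jB (N : ℕ) : ((jB N : B N) : ℍ → ℂ) = X0L1.jFun := rfl

/-- `j` as an element of the field of modular functions. -/
noncomputable def jF (N : ℕ) : Fld N := algebraMap (B N) (Fld N) (jB N)

theorem actB_jB (N : ℕ) (γ : SL(2, ℤ)) : actB N γ (jB N) = jB N := by
  apply Subtype.ext
  rw [coe_actB, coe_jB]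
  funext z
  rw [act_apply, X0L1.jFun_smul]

theorem rho_jF (N : ℕ) (γ : SL(2, ℤ)) : rho N γ (jF N) = jF N := by
  rw [jF, rho_algebraMap, actB_jB]

/-- A holomorphic `SL₂(ℤ)`-invariant function that is bounded at `i∞` is a level-one form. -/
theorem fixed_exists_modularForm_of_invariant (k : ℤ) (F : ℍ → ℂ) (hF : MDiff F)
    (hb : IsBoundedAtImInfty F) (hinv : ∀ γ ∈ 𝒮ℒ, F ∣[k] γ = F) :
    ∃ h : ModularForm 𝒮ℒ k, ⇑h = F :=
  ⟨{ toFun := F
     slash_action_eq' := hinv
     holo' := hF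
     bdd_at_cusps' := fun {c} hc => by
       rw [OnePoint.isBoundedAt_iff_forall_SL2Z hc]
       intro γ _
       have h1 : F ∣[k] γ = F := hinv _ ⟨γ, rfl⟩
       rw [h1]
       exact hb }, rfl⟩

/-- `Polynomial.aeval` in `B N` evaluates pointwise. -/
theorem fixed_coe_aeval (N : ℕ) (b : B N) (P : Polynomial ℂ) (z : ℍ) :
    ((Polynomial.aeval b P : B N) : ℍ → ℂ) z = P.eval ((b : ℍ → ℂ) z) := by
  induction P using Polynomial.induction_on with
  | C a =>
    rw [Polynomial.aeval_C, Polynomial.eval_C]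
    rfl
  | add p q hp hq =>
    rw [map_add, Polynomial.eval_add, ← hp, ← hq]
    rfl
  | monomial n a ih =>
    rw [map_mul, Polynomial.aeval_C, map_pow, Polynomial.aeval_X, Polynomial.eval_mul,
      Polynomial.eval_C, Polynomial.eval_pow, Polynomial.eval_X]
    rfl

/-- An invariant element of `B N` is invariant as a function. -/
theorem fixed_apply_smul (N : ℕ) (h : B N) (hh : ∀ γ : SL(2, ℤ), actB N γ h = h)
    (γ : SL(2, ℤ)) (z : ℍ) : (h : ℍ → ℂ) (γ • z) = (h : ℍ → ℂ) z := by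
  have h1 := congrFun (congrArg Subtype.val (hh γ⁻¹)) z
  rw [coe_actB, act_apply, inv_inv] at h1
  exact h1

/-- An `SL(2,ℤ)`-invariant element of `B N` is a polynomial in `j`. -/
theorem exists_poly_of_invariant (N : ℕ) (h : B N) (hh : ∀ γ : SL(2, ℤ), actB N γ h = h) :
    ∃ P : Polynomial ℂ, h = Polynomial.aeval (jB N) P := by
  obtain ⟨m, hm⟩ := h.2.bdd
  have hb : IsBoundedAtImInfty (fun z : ℍ => (h : ℍ → ℂ) z * discriminant z ^ m) := by
    refine (hm 1).congr' (Filter.Eventually.of_forall fun z => ?_) (Filter.EventuallyEq.refl _ _)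
    show (h : ℍ → ℂ) ((1 : SL(2, ℤ)) • z) * discriminant z ^ m = _
    rw [one_smul]
  have hmd : MDiff (fun z : ℍ => (h : ℍ → ℂ) z * discriminant z ^ m) :=
    h.2.mdiff.mul (mdiff_discriminant.pow m)
  have hinv : ∀ γ ∈ 𝒮ℒ, (fun z : ℍ => (h : ℍ → ℂ) z * discriminant z ^ m) ∣[(12 * (m : ℤ))] γ
      = (fun z : ℍ => (h : ℍ → ℂ) z * discriminant z ^ m) := by
    rintro _ ⟨γ, rfl⟩
    funext z
    have hd : denom (Matrix.SpecialLinearGroup.toGL
        ((Matrix.SpecialLinearGroup.map (Int.castRingHom ℝ)) γ)) (z : ℂ) ≠ 0 :=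
      UpperHalfPlane.denom_ne_zero _ z
    have e := ModularForm.SL_slash_apply (k := 12 * (m : ℤ))
      (fun z : ℍ => (h : ℍ → ℂ) z * discriminant z ^ m) γ z
    refine e.trans ?_
    show (h : ℍ → ℂ) (γ • z) * discriminant (γ • z) ^ m * _ = _
    rw [fixed_apply_smul N h hh, X0L1.discriminant_smul, mul_pow, ← pow_mul, zpow_neg,
      ← zpow_natCast (denom _ _) (12 * m)]
    push_cast
    field_simp
  obtain ⟨f, hf⟩ := fixed_exists_modularForm_of_invariant _ _ hmd hb hinv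
  obtain ⟨P, -, hP⟩ := X0L1.exists_poly_of_levelOne m f
  refine ⟨P, Subtype.ext (funext fun z => ?_)⟩
  rw [fixed_coe_aeval, coe_jB]
  have h1 := hP z
  rw [hf] at h1
  have h2 : discriminant z ^ m ≠ 0 := pow_ne_zero _ (discriminant_ne_zero z)
  have h3 : discriminant z ^ m * (h : ℍ → ℂ) z = discriminant z ^ m * P.eval (X0L1.jFun z) := by
    rw [← h1]; ring
  exact mul_left_cancel₀ h2 h3

theorem fixed_actB_mul_apply (N : ℕ) (γ δ : SL(2, ℤ)) (b : B N) :
    actB N (γ * δ) b = actB N γ (actB N δ b) := by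
  rw [actB_mul]; rfl

/-- The fixed field of `SL(2,ℤ)` is `ℂ(j)`. -/
theorem fixed_mem_adjoin (N : ℕ) [NeZero N] (x : Fld N) (hx : ∀ γ : SL(2, ℤ), rho N γ x = x) :
    x ∈ ℂ⟮jF N⟯ := by
  classical
  obtain ⟨a, b, hb, rfl⟩ := IsFractionRing.div_surjective (A := B N) x
  have hb0 : b ≠ 0 := nonZeroDivisors.ne_zero hb
  set S : Finset (B N) := (finite_orbit N b).toFinset with hS
  have hmemS : ∀ c : B N, c ∈ S ↔ ∃ γ : SL(2, ℤ), actB N γ b = c := by
    intro c
    rw [hS, Set.Finite.mem_toFinset, Set.mem_range]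
  set nb : B N := ∏ b' ∈ S, b' with hnb
  have hbS : b ∈ S := (hmemS b).mpr ⟨1, by rw [actB_one]; rfl⟩
  have hnb0 : nb ≠ 0 := by
    rw [hnb, Finset.prod_ne_zero_iff]
    intro c hc
    obtain ⟨γ, rfl⟩ := (hmemS c).mp hc
    exact (map_ne_zero_iff _ (actB N γ).injective).mpr hb0
  have hnbinv : ∀ γ : SL(2, ℤ), actB N γ nb = nb := by
    intro γ
    rw [hnb, map_prod]
    refine Finset.prod_bij (fun c _ => actB N γ c) ?_ ?_ ?_ ?_
    · intro c hc
      obtain ⟨δ, rfl⟩ := (hmemS c).mp hc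
      exact (hmemS _).mpr ⟨γ * δ, fixed_actB_mul_apply N γ δ b⟩
    · intro c _ c' _ hcc
      exact (actB N γ).injective hcc
    · intro c hc
      obtain ⟨δ, rfl⟩ := (hmemS c).mp hc
      refine ⟨actB N (γ⁻¹ * δ) b, (hmemS _).mpr ⟨_, rfl⟩, ?_⟩
      rw [← fixed_actB_mul_apply, mul_inv_cancel_left]
    · intro c _
      rfl
  obtain ⟨c, hc⟩ : b ∣ nb := Finset.dvd_prod_of_mem _ hbS
  have hc0 : c ≠ 0 := by
    rintro rfl
    exact hnb0 (by rw [hc, mul_zero])
  have hinj : Function.Injective (algebraMap (B N) (Fld N)) := IsFractionRing.injective _ _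
  have hbF : algebraMap (B N) (Fld N) b ≠ 0 := (map_ne_zero_iff _ hinj).mpr hb0
  have hcF : algebraMap (B N) (Fld N) c ≠ 0 := (map_ne_zero_iff _ hinj).mpr hc0
  have hnbF : algebraMap (B N) (Fld N) nb ≠ 0 := (map_ne_zero_iff _ hinj).mpr hnb0
  have hx' : algebraMap (B N) (Fld N) a / algebraMap (B N) (Fld N) b
      = algebraMap (B N) (Fld N) (a * c) / algebraMap (B N) (Fld N) nb := by
    rw [hc, map_mul, map_mul]
    field_simp
  have hac : algebraMap (B N) (Fld N) (a * c)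
      = algebraMap (B N) (Fld N) a / algebraMap (B N) (Fld N) b
        * algebraMap (B N) (Fld N) nb := by
    rw [hx']
    field_simp
  have hacinv : ∀ γ : SL(2, ℤ), actB N γ (a * c) = a * c := by
    intro γ
    apply hinj
    rw [← rho_algebraMap, hac, map_mul, hx γ, rho_algebraMap, hnbinv]
  obtain ⟨P, hP⟩ := exists_poly_of_invariant N (a * c) hacinv
  obtain ⟨Q, hQ⟩ := exists_poly_of_invariant N nb hnbinv
  rw [hx', IntermediateField.mem_adjoin_simple_iff]
  refine ⟨P, Q, ?_⟩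
  rw [hP, hQ, jF, Polynomial.aeval_algebraMap_apply, Polynomial.aeval_algebraMap_apply]

end Fermat.Agent.X0Fld
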