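import Fermat.Agent.X0Fld.CuspRot
import Fermat.Agent.X0Fld.CuspOrder
import Fermat.Agent.X0Fld.Fixed

/-!
# Expansion at `i∞` on the field of modular functions (package FLD)
-/

set_option autoImplicit false

open UpperHalfPlane ModularForm CongruenceSubgroup
open scoped MatrixGroups Manifold

namespace Fermat.Agent.X0Fld

/-- The expansion at `i∞` on the field of modular functions of level `Γ(N)`. -/
noncomputable def Tinf (N : ℕ) [NeZero N] : Fld N →ₐ[ℂ] LaurentSeries ℂ :=
  IsFractionRing.liftAlgHom (g := TinfB N) (TinfB_injective N)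

theorem Tinf_algebraMap (N : ℕ) [NeZero N] (h : B N) :
    Tinf N (algebraMap (B N) (Fld N) h) = TinfB N h := by
  rw [Tinf, IsFractionRing.liftAlgHom_apply]
  exact IsFractionRing.lift_algebraMap (TinfB_injective N) h

/-- `Ginf` acts on expansions at `i∞` by rescaling `q_N`. -/
theorem Tinf_rho (N : ℕ) [NeZero N] {g : SL(2, ℤ)} (hg : g ∈ Ginf) (x : Fld N) (n : ℤ) :
    (Tinf N (rho N g x)).coeff n = ((chiInf N g : ℂˣ) : ℂ) ^ n * (Tinf N x).coeff n := by
  have key := coeff_eq_of_rescale (A := B N) (𝔉 := Fld N) (K := ℂ)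
    (Tinf N).toRingHom
    ((Tinf N).toRingHom.comp ((rho N g : Fld N ≃ₐ[ℂ] Fld N) : Fld N →+* Fld N))
    (chiInf N g)
    (by
      intro h
      show Tinf N (rho N g (algebraMap (B N) (Fld N) h)) =
        rescaleL (chiInf N g) (Tinf N (algebraMap (B N) (Fld N) h))
      rw [rho_algebraMap, Tinf_algebraMap, Tinf_algebraMap, TinfB_actB N hg])
    x n
  exact key

/-- `j` has a pole of order `N` in `q_N` at `i∞`. -/
theorem order_Tinf_j (N : ℕ) [NeZero N] : (Tinf N (jF N)).order = -(N : ℤ) := by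
  rw [jF, Tinf_algebraMap]
  have hlim : Filter.Tendsto
      (fun z : ℍ => ((jB N : B N) : ℍ → ℂ) z * discriminant z ^ 1) atImInfty (nhds 1) := by
    have h4 := (X0L1.tendsto_E₄_atImInfty).pow 3
    rw [one_pow] at h4
    refine h4.congr ?_
    intro z
    rw [coe_jB, pow_one, X0L1.jFun_mul_discriminant]
  have := order_TinfB_eq N (jB N) 1 1 one_ne_zero hlim
  rw [this]
  simp

end Fermat.Agent.X0Fld
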