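import Fermat.Agent.X0Fld.Fixed
import Fermat.Agent.S22.Hermite
import Fermat.Agent.S23.Theta

/-!
# The functions `j(d z)` for `d ∣ N` (package FLD)

`j(d ·) ∈ B N` is invariant under `Γ₀(N)`, and the stabilizer of `j(N ·)` in `SL(2,ℤ)` is
exactly `Γ₀(N)` (compare the growth at `i∞`).
-/

set_option autoImplicit false

open UpperHalfPlane ModularForm CongruenceSubgroup
open scoped MatrixGroups Manifold

namespace Fermat.Agent.X0Fld

open Fermat.Agent.S23L.Theta in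
/-- An identity of integral matrices `!![a, b; 0, d] * γ = g' * !![a', b'; 0, d']` gives the
corresponding identity in `GL (Fin 2) ℝ`. -/
theorem jN_UT_mul_mapGL (a b d a' b' d' : ℤ) (γ g' : SL(2, ℤ))
    (hmat : !![a, b; 0, d] * (γ : Matrix (Fin 2) (Fin 2) ℤ) =
        (g' : Matrix (Fin 2) (Fin 2) ℤ) * !![a', b'; 0, d'])
    (h : (a : ℝ) * (d : ℝ) ≠ 0) (h' : (a' : ℝ) * (d' : ℝ) ≠ 0) :
    UT a b d h * Matrix.SpecialLinearGroup.mapGL ℝ γ =
      Matrix.SpecialLinearGroup.mapGL ℝ g' * UT a' b' d' h' := by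
  apply Matrix.GeneralLinearGroup.ext
  intro i j
  have hcast := congrArg (fun A : Matrix (Fin 2) (Fin 2) ℤ => (A i j : ℝ)) hmat
  simp only [Matrix.mul_apply, Fin.sum_univ_two] at hcast
  rw [Matrix.GeneralLinearGroup.coe_mul, Matrix.GeneralLinearGroup.coe_mul,
    ModularForm.val_upperTriangularGL, ModularForm.val_upperTriangularGL]
  simp only [Matrix.mul_apply, Fin.sum_univ_two, Matrix.SpecialLinearGroup.mapGL_coe_matrix,
    algebraMap_int_eq]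
  push_cast at hcast
  fin_cases i <;> fin_cases j <;> simpa using hcast

open Fermat.Agent.S23L.Theta in
/-- The matrix identity `!![a, b; 0, d] * γ = g' * !![a', b'; 0, d']` on points of `ℍ`. -/
theorem jN_UT_smul_smul (a b d a' b' d' : ℤ) (γ g' : SL(2, ℤ))
    (hmat : !![a, b; 0, d] * (γ : Matrix (Fin 2) (Fin 2) ℤ) =
        (g' : Matrix (Fin 2) (Fin 2) ℤ) * !![a', b'; 0, d'])
    (h : (a : ℝ) * (d : ℝ) ≠ 0) (h' : (a' : ℝ) * (d' : ℝ) ≠ 0) (z : ℍ) :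
    UT a b d h • (γ • z) = g' • (UT a' b' d' h' • z) := by
  have key := jN_UT_mul_mapGL a b d a' b' d' γ g' hmat h h'
  show UT a b d h • (Matrix.SpecialLinearGroup.mapGL ℝ γ • z) =
    Matrix.SpecialLinearGroup.mapGL ℝ g' • (UT a' b' d' h' • z)
  rw [← mul_smul, ← mul_smul, key]

/-- the point `d z` of the upper half plane (`d > 0`) -/
noncomputable def mulPt (d : ℕ) [NeZero d] (z : ℍ) : ℍ :=
  ⟨(d : ℂ) * (z : ℂ), by
    have hd : (0 : ℝ) < (d : ℝ) := Nat.cast_pos.mpr (Nat.pos_of_ne_zero (NeZero.ne d))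
    simpa using mul_pos hd z.im_pos⟩

/-- The function `z ↦ j(d z)`. -/
noncomputable def jN (d : ℕ) [NeZero d] : ℍ → ℂ := fun z => X0L1.jFun (mulPt d z)

theorem jN_cast_pos (d : ℕ) [NeZero d] : (0 : ℤ) < (d : ℤ) := by
  exact_mod_cast Nat.pos_of_ne_zero (NeZero.ne d)

theorem jN_cast_ne (d : ℕ) [NeZero d] : ((d : ℤ) : ℝ) * ((1 : ℤ) : ℝ) ≠ 0 := by
  have : ((d : ℤ) : ℝ) ≠ 0 := by exact_mod_cast (jN_cast_pos d).ne'
  simpa using this

open Fermat.Agent.S23L.Theta in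
theorem mulPt_eq_UT (d : ℕ) [NeZero d] (z : ℍ) :
    mulPt d z = UT (d : ℤ) 0 1 (jN_cast_ne d) • z := by
  apply UpperHalfPlane.ext
  rw [UT_coe_smul _ _ _ (jN_cast_pos d) one_pos]
  simp [mulPt]

open Fermat.Agent.S23L.Theta in
/-- `j(d (γ z)) = j((a' z + b') / d')` whenever `!![d, 0; 0, 1] * γ = g' * !![a', b'; 0, d']`. -/
theorem jN_smul_eq (d : ℕ) [NeZero d] (a' b' d' : ℤ) (γ g' : SL(2, ℤ))
    (hmat : !![(d : ℤ), 0; 0, 1] * (γ : Matrix (Fin 2) (Fin 2) ℤ) =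
        (g' : Matrix (Fin 2) (Fin 2) ℤ) * !![a', b'; 0, d'])
    (h' : (a' : ℝ) * (d' : ℝ) ≠ 0) (z : ℍ) :
    jN d (γ • z) = X0L1.jFun (UT a' b' d' h' • z) := by
  show X0L1.jFun (mulPt d (γ • z)) = _
  rw [mulPt_eq_UT, jN_UT_smul_smul (d : ℤ) 0 1 a' b' d' γ g' hmat (jN_cast_ne d) h' z,
    X0L1.jFun_smul]

/-- `j(d ·)` is invariant under `γ` with `d ∣ γ 1 0`. -/
theorem jN_smul_of_dvd (d : ℕ) [NeZero d] (γ : SL(2, ℤ)) (hγ : (d : ℤ) ∣ γ 1 0) (z : ℍ) :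
    jN d (γ • z) = jN d z := by
  obtain ⟨c', hc'⟩ := hγ
  have hdet := γ.det_coe
  rw [Matrix.det_fin_two] at hdet
  let γ' : SL(2, ℤ) := ⟨!![γ 0 0, d * γ 0 1; c', γ 1 1], by
    rw [Matrix.det_fin_two_of]
    rw [hc'] at hdet
    linarith⟩
  have hmat : !![(d : ℤ), 0; 0, 1] * (γ : Matrix (Fin 2) (Fin 2) ℤ) =
        (γ' : Matrix (Fin 2) (Fin 2) ℤ) * !![(d : ℤ), 0; 0, 1] := by
    ext i j
    fin_cases i <;> fin_cases j <;>
      simp [Matrix.mul_apply, Fin.sum_univ_two, γ', hc', mul_comm]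
  rw [jN_smul_eq d (d : ℤ) 0 1 γ γ' hmat (jN_cast_ne d) z]
  show _ = X0L1.jFun (mulPt d z)
  rw [mulPt_eq_UT]

theorem jN_dvd_of_mem_Gamma0 {N d : ℕ} (hd : d ∣ N) {γ : SL(2, ℤ)} (hγ : γ ∈ Gamma0 N) :
    (d : ℤ) ∣ γ 1 0 := by
  have h1 : ((N : ℤ)) ∣ γ 1 0 :=
    (ZMod.intCast_zmod_eq_zero_iff_dvd _ _).mp ((Gamma0_mem (N := N) (A := γ)).mp hγ)
  exact (Int.natCast_dvd_natCast.mpr hd).trans h1

theorem jN_dvd_of_mem_Gamma {N d : ℕ} (hd : d ∣ N) {γ : SL(2, ℤ)} (hγ : γ ∈ Gamma N) :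
    (d : ℤ) ∣ γ 1 0 := by
  have h0 := (Gamma_mem (N := N) (γ := γ)).mp hγ
  have h1 : ((N : ℤ)) ∣ γ 1 0 := (ZMod.intCast_zmod_eq_zero_iff_dvd _ _).mp h0.2.2.1
  exact (Int.natCast_dvd_natCast.mpr hd).trans h1

open Fermat.Agent.S23L.Theta in
theorem jN_norm_qParam_UT (a b d : ℤ) (ha : 0 < a) (hd : 0 < d) (h : (a : ℝ) * (d : ℝ) ≠ 0)
    (z : ℍ) :
    ‖Function.Periodic.qParam 1 ((UT a b d h • z : ℍ) : ℂ)‖ =
      Real.exp (-2 * Real.pi * ((a : ℝ) / (d : ℝ) * z.im)) := by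
  rw [Function.Periodic.norm_qParam, UpperHalfPlane.coe_im, UT_im_smul a b d ha hd h, div_one]

theorem jN_norm_qParam (z : ℍ) :
    ‖Function.Periodic.qParam 1 (z : ℂ)‖ = Real.exp (-2 * Real.pi * z.im) := by
  rw [Function.Periodic.norm_qParam, UpperHalfPlane.coe_im, div_one]

open Fermat.Agent.S23L.Theta in
theorem jN_tendsto_UT (a b d : ℤ) (ha : 0 < a) (hd : 0 < d) (h : (a : ℝ) * (d : ℝ) ≠ 0) :
    Filter.Tendsto (fun z : ℍ => X0L1.jFun (UT a b d h • z) *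
      Function.Periodic.qParam 1 ((UT a b d h • z : ℍ) : ℂ)) atImInfty (nhds 1) :=
  X0L1.tendsto_jFun_mul_qParam.comp (tendsto_UT_smul a b d ha hd h)

open Fermat.Agent.S23L.Theta in
theorem jN_bdd_UT (a b d : ℤ) (ha : 0 < a) (hd : 0 < d) (h : (a : ℝ) * (d : ℝ) ≠ 0) (m : ℕ)
    (hm : (a : ℝ) / (d : ℝ) ≤ m) :
    IsBoundedAtImInfty (fun z : ℍ => X0L1.jFun (UT a b d h • z) * discriminant z ^ m) := by
  have h1 : IsBoundedAtImInfty (fun z : ℍ => X0L1.jFun (UT a b d h • z) *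
      Function.Periodic.qParam 1 ((UT a b d h • z : ℍ) : ℂ)) :=
    (jN_tendsto_UT a b d ha hd h).isBigO_one ℝ
  have h2 : IsBoundedAtImInfty
      (fun z : ℍ => (discriminant z / Function.Periodic.qParam 1 (z : ℂ)) ^ m) := by
    have := (X0L1.tendsto_discriminant_div_qParam.pow m)
    exact this.isBigO_one ℝ
  have h3 : IsBoundedAtImInfty (fun z : ℍ => Function.Periodic.qParam 1 (z : ℂ) ^ m /
      Function.Periodic.qParam 1 ((UT a b d h • z : ℍ) : ℂ)) := by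
    rw [isBoundedAtImInfty_iff]
    refine ⟨1, 0, fun z _ => ?_⟩
    rw [norm_div, norm_pow, jN_norm_qParam, jN_norm_qParam_UT a b d ha hd h, ← Real.exp_nat_mul,
      ← Real.exp_sub, ← Real.exp_zero]
    apply Real.exp_le_exp.mpr
    have hz := z.im_pos
    have hpi := Real.pi_pos
    have : (a : ℝ) / (d : ℝ) * z.im ≤ m * z.im := mul_le_mul_of_nonneg_right hm hz.le
    nlinarith
  refine ((h1.mul h2).mul h3).congr' (Filter.Eventually.of_forall fun z => ?_)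
    (Filter.EventuallyEq.refl _ _)
  have hq1 := Function.Periodic.qParam_ne_zero (h := 1) (z : ℂ)
  have hq2 := Function.Periodic.qParam_ne_zero (h := 1) ((UT a b d h • z : ℍ) : ℂ)
  simp only [Pi.mul_apply, div_pow]
  field_simp

theorem isWH_jN (N d : ℕ) [NeZero N] [NeZero d] (hd : d ∣ N) : IsWH N (jN d) where
  mdiff := by
    have h1 : jN d = fun z : ℍ => X0L1.jFun
        (Fermat.Agent.S23L.Theta.UT (d : ℤ) 0 1 (jN_cast_ne d) • z) := by
      funext z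
      show X0L1.jFun (mulPt d z) = _
      rw [mulPt_eq_UT]
    rw [h1]
    exact X0L1.mdifferentiable_jFun.comp (mdifferentiable_smul
      (Fermat.Agent.S23L.Theta.UT_det_pos (d : ℤ) 0 1 (jN_cast_pos d) one_pos (jN_cast_ne d)))
  inv := fun γ hγ z => jN_smul_of_dvd d γ (jN_dvd_of_mem_Gamma hd hγ) z
  bdd := by
    refine ⟨d, fun γ => ?_⟩
    obtain ⟨g', a', b', d', ha', hd', hprod, hmat⟩ :=
      Fermat.Agent.S22.hermite_int (d : ℤ) 0 1 (jN_cast_pos d) one_pos γ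
    have h' : (a' : ℝ) * (d' : ℝ) ≠ 0 :=
      mul_ne_zero (by exact_mod_cast ha'.ne') (by exact_mod_cast hd'.ne')
    have hle : (a' : ℝ) / (d' : ℝ) ≤ (d : ℕ) := by
      have hd1 : (1 : ℝ) ≤ (d' : ℝ) := by exact_mod_cast hd'
      have ha0 : (0 : ℝ) < (a' : ℝ) := by exact_mod_cast ha'
      have hp : (a' : ℝ) * (d' : ℝ) = (d : ℝ) := by exact_mod_cast (by simpa using hprod)
      rw [div_le_iff₀ (by linarith)]
      nlinarith
    refine (jN_bdd_UT a' b' d' ha' hd' h' d hle).congr' (Filter.Eventually.of_forall fun z => ?_)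
      (Filter.EventuallyEq.refl _ _)
    show _ = jN d (γ • z) * discriminant z ^ d
    rw [jN_smul_eq d a' b' d' γ g' hmat h' z]

/-- `j(d ·)` as an element of `B N`. -/
noncomputable def jNB (N d : ℕ) [NeZero N] [NeZero d] (hd : d ∣ N) : B N := ⟨jN d, isWH_jN N d hd⟩

/-- `j(d ·)` is invariant under `Γ₀(N)` for `d ∣ N`. -/
theorem actB_jNB (N d : ℕ) [NeZero N] [NeZero d] (hd : d ∣ N) {γ : SL(2, ℤ)}
    (hγ : γ ∈ Gamma0 N) : actB N γ (jNB N d hd) = jNB N d hd := by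
  apply Subtype.ext
  rw [coe_actB]
  funext z
  rw [act_apply]
  exact jN_smul_of_dvd d γ⁻¹ (jN_dvd_of_mem_Gamma0 hd (inv_mem hγ)) z

open Fermat.Agent.S23L.Theta in
/-- Growth comparison at `i∞`: if `j((a z + b)/d) = j((a' z + b')/d')` for all `z`, then
`a / d` is not smaller than `a' / d'`. -/
theorem jN_not_lt_of_eq (a b d a' b' d' : ℤ) (ha : 0 < a) (hd : 0 < d) (ha' : 0 < a')
    (hd' : 0 < d') (h : (a : ℝ) * (d : ℝ) ≠ 0) (h' : (a' : ℝ) * (d' : ℝ) ≠ 0)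
    (hj : ∀ z : ℍ, X0L1.jFun (UT a b d h • z) = X0L1.jFun (UT a' b' d' h' • z)) :
    ¬ ((a : ℝ) / (d : ℝ) < (a' : ℝ) / (d' : ℝ)) := by
  intro hlt
  set c : ℝ := 2 * Real.pi * ((a' : ℝ) / (d' : ℝ) - (a : ℝ) / (d : ℝ)) with hc
  have hcpos : 0 < c := mul_pos (by positivity) (by linarith)
  have hF := (jN_tendsto_UT a b d ha hd h).norm
  have hF' := (jN_tendsto_UT a' b' d' ha' hd' h').norm
  have hexp : Filter.Tendsto (fun z : ℍ => Real.exp (-c * z.im)) atImInfty (nhds 0) := by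
    have h1 : Filter.Tendsto (fun z : ℍ => z.im) atImInfty Filter.atTop := Filter.tendsto_comap
    have h2 : Filter.Tendsto (fun z : ℍ => -c * z.im) atImInfty Filter.atBot := by
      have h3 := Filter.tendsto_neg_atTop_atBot.comp (h1.const_mul_atTop hcpos)
      refine h3.congr fun z => ?_
      simp [Function.comp_apply]
    exact Real.tendsto_exp_atBot.comp h2
  have hprod := hF.mul hexp
  have heq : ∀ z : ℍ, ‖X0L1.jFun (UT a b d h • z) *
        Function.Periodic.qParam 1 ((UT a b d h • z : ℍ) : ℂ)‖ * Real.exp (-c * z.im) =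
      ‖X0L1.jFun (UT a' b' d' h' • z) *
        Function.Periodic.qParam 1 ((UT a' b' d' h' • z : ℍ) : ℂ)‖ := by
    intro z
    rw [norm_mul, norm_mul, jN_norm_qParam_UT a b d ha hd h, jN_norm_qParam_UT a' b' d' ha' hd' h',
      hj z, mul_assoc, ← Real.exp_add]
    congr 2
    rw [hc]
    ring
  have hF'' := hprod.congr heq
  have := tendsto_nhds_unique hF' hF''
  simp at this

/-- If `j(N ·)` is invariant under `δ ∈ SL(2,ℤ)`, then `δ ∈ Γ₀(N)`. -/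
theorem jN_mem_Gamma0_of_smul_eq (N : ℕ) [NeZero N] (δ : SL(2, ℤ))
    (hinv : ∀ z : ℍ, jN N (δ • z) = jN N z) : δ ∈ Gamma0 N := by
  obtain ⟨g', a', b', d', ha', hd', hprod, hmat⟩ :=
    Fermat.Agent.S22.hermite_int (N : ℤ) 0 1 (jN_cast_pos N) one_pos δ
  have h' : (a' : ℝ) * (d' : ℝ) ≠ 0 :=
    mul_ne_zero (by exact_mod_cast ha'.ne') (by exact_mod_cast hd'.ne')
  have hj : ∀ z : ℍ, X0L1.jFun (Fermat.Agent.S23L.Theta.UT a' b' d' h' • z) =
      X0L1.jFun (Fermat.Agent.S23L.Theta.UT (N : ℤ) 0 1 (jN_cast_ne N) • z) := by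
    intro z
    rw [← jN_smul_eq N a' b' d' δ g' hmat h' z, hinv z]
    show X0L1.jFun (mulPt N z) = _
    rw [mulPt_eq_UT]
  have hle1 := jN_not_lt_of_eq a' b' d' (N : ℤ) 0 1 ha' hd' (jN_cast_pos N) one_pos h'
    (jN_cast_ne N) hj
  have hle2 := jN_not_lt_of_eq (N : ℤ) 0 1 a' b' d' (jN_cast_pos N) one_pos ha' hd'
    (jN_cast_ne N) h' (fun z => (hj z).symm)
  have hratio : (a' : ℝ) / (d' : ℝ) = ((N : ℤ) : ℝ) / ((1 : ℤ) : ℝ) :=
    le_antisymm (not_lt.mp hle2) (not_lt.mp hle1)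
  have hd0 : (d' : ℝ) ≠ 0 := by exact_mod_cast hd'.ne'
  have ha1 : a' = N * d' := by
    have : (a' : ℝ) = (N : ℝ) * (d' : ℝ) := by
      rw [Int.cast_one, div_one, div_eq_iff hd0] at hratio
      simpa using hratio
    exact_mod_cast this
  have hNpos := jN_cast_pos N
  have hd1 : d' = 1 := by
    have h2 : (N : ℤ) * (d' * d') = (N : ℤ) * 1 := by
      rw [ha1] at hprod
      linarith
    have h3 : d' * d' = 1 := mul_left_cancel₀ hNpos.ne' h2
    nlinarith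
  subst hd1
  have h10 := congrArg (fun M : Matrix (Fin 2) (Fin 2) ℤ => M 1 0) hmat
  simp only [Matrix.mul_apply, Fin.sum_univ_two] at h10
  simp at h10
  rw [Gamma0_mem, h10, ha1]
  simp

/-- The stabilizer of `j(N ·)` is exactly `Γ₀(N)`. -/
theorem mem_Gamma0_of_actB_jNB (N : ℕ) [NeZero N] {γ : SL(2, ℤ)}
    (hγ : actB N γ (jNB N N dvd_rfl) = jNB N N dvd_rfl) : γ ∈ Gamma0 N := by
  have hinv : ∀ z : ℍ, jN N (γ⁻¹ • z) = jN N z := by
    intro z
    have h1 := congrArg (fun h : B N => (h : ℍ → ℂ) z) hγ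
    simp only [coe_actB, act_apply] at h1
    exact h1
  exact inv_mem_iff.mp (jN_mem_Gamma0_of_smul_eq N γ⁻¹ hinv)

end Fermat.Agent.X0Fld
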