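import Fermat.Agent.X0Fld.PointsOrder
import Fermat.Agent.X0Fld.CuspOrder
import Fermat.Agent.X0Fld.Infty
import Fermat.Agent.X0Fld.JN
import Fermat.Agent.Cover.Defs

/-!
# The cover datum of `X₀(N)` (package FLD)
-/

set_option autoImplicit false

open UpperHalfPlane ModularForm CongruenceSubgroup
open scoped MatrixGroups Manifold

namespace Fermat.Agent.X0Fld

open Fermat.Agent.CoverL

theorem neg_one_mem_normalCore_Gamma0 (N : ℕ) :
    (-1 : SL(2, ℤ)) ∈ (Gamma0 N).normalCore := by
  rw [Subgroup.normalCore]
  intro b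
  have h : b * (-1 : SL(2, ℤ)) * b⁻¹ = -1 := by
    rw [mul_neg, mul_one, neg_mul, mul_inv_cancel]
  rw [h, Gamma0_mem]
  simp

theorem datum_finite_ram (N : ℕ) :
    {P : OnePoint ℂ | ¬ (P.elim Ginf (fun c => Gfin c)) ≤ (Gamma0 N).normalCore}.Finite := by
  apply Set.Finite.subset (Set.toFinite ({OnePoint.infty, ((0 : ℂ) : OnePoint ℂ),
    ((1728 : ℂ) : OnePoint ℂ)} : Set (OnePoint ℂ)))
  intro P hP
  induction P using OnePoint.rec with
  | infty => simp
  | coe c =>
    by_cases h0 : c = 0
    · simp [h0]
    by_cases h1 : c = 1728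
    · simp [h1]
    exfalso
    apply hP
    show Gfin c ≤ (Gamma0 N).normalCore
    rw [Gfin_generic h0 h1, Subgroup.zpowers_le]
    exact neg_one_mem_normalCore_Gamma0 N

/-- The cover datum of `X₀(N) → X(1)`: the field of modular functions of level `Γ(N)` with its
`SL(2,ℤ)`-action, `j`, the local expansions at the chosen points, and `H = Γ₀(N)`. -/
noncomputable def datum (N : ℕ) [NeZero N] : CoverDatum ℂ (Fld N) SL(2, ℤ) where
  ρ := rho N
  j := jF N
  ρ_j := rho_jF N
  fixed := fixed_mem_adjoin N
  T := fun P => P.elim (Tinf N) (fun c => Tfin N c)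
  G := fun P => P.elim Ginf (fun c => Gfin c)
  χ := fun P g => P.elim (chiInf N g) (fun c => chiFin c g)
  χ_mul := by
    intro P g h hg hh
    induction P using OnePoint.rec with
    | infty => exact chiInf_mul N hg hh
    | coe c => exact chiFin_mul c hg hh
  T_ρ := by
    intro P g hg x n
    induction P using OnePoint.rec with
    | infty => exact Tinf_rho N hg x n
    | coe c => exact Tfin_rho N c hg x n
  d := fun P => P.elim N (fun c => dFin c)
  d_pos := by
    intro P
    induction P using OnePoint.rec with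
    | infty => exact Nat.pos_of_ne_zero (NeZero.ne N)
    | coe c => exact dFin_pos c
  order_T_j_sub := fun c => order_Tfin_j_sub N c
  order_T_j_infty := order_Tinf_j N
  card_χ := by
    intro P
    induction P using OnePoint.rec with
    | infty => exact card_chiInf N
    | coe c => exact card_chiFin c
  H := Gamma0 N
  H_index_ne_zero := Subgroup.FiniteIndex.index_ne_zero
  y := algebraMap (B N) (Fld N) (jNB N N dvd_rfl)
  ρ_y := fun h hh => by rw [rho_algebraMap, actB_jNB N N dvd_rfl hh]
  mem_H_of_ρ_y := fun γ hγ => by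
    rw [rho_algebraMap] at hγ
    exact mem_Gamma0_of_actB_jNB N (IsFractionRing.injective (B N) (Fld N) hγ)
  finite_ram := datum_finite_ram N

variable (N : ℕ) [NeZero N]

theorem datum_ρ : (datum N).ρ = rho N := rfl

theorem datum_j : (datum N).j = jF N := rfl

theorem datum_T_coe (c : ℂ) : (datum N).T (c : OnePoint ℂ) = Tfin N c := rfl

theorem datum_T_infty : (datum N).T OnePoint.infty = Tinf N := rfl

theorem datum_G_coe (c : ℂ) : (datum N).G (c : OnePoint ℂ) = Gfin c := rfl

theorem datum_G_infty : (datum N).G OnePoint.infty = Ginf := rfl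

theorem datum_d_coe (c : ℂ) : (datum N).d (c : OnePoint ℂ) = dFin c := rfl

theorem datum_d_infty : (datum N).d OnePoint.infty = N := rfl

theorem datum_H : (datum N).H = Gamma0 N := rfl

theorem datum_y : (datum N).y = algebraMap (B N) (Fld N) (jNB N N dvd_rfl) := rfl

end Fermat.Agent.X0Fld
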