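import Fermat.Agent.X0Fld.CuspOrder

/-!
# Leading term at `i∞` of a weakly holomorphic modular function (package FLD)

For `0 ≠ h ∈ B N` with expansion `TinfB N h = c q_N^k + …` (`c ≠ 0`, `k` the order),
`h(z) q_N(z)^(-k) → c` as `Im z → ∞`.
-/

set_option autoImplicit false

open UpperHalfPlane ModularForm CongruenceSubgroup
open scoped MatrixGroups Manifold

namespace Fermat.Agent.X0Fld

/-- local factorization of a function with a power series whose first `n` coefficients vanish -/
theorem cuspAsymp_factor (n : ℕ) : ∀ (f : ℂ → ℂ) (p : FormalMultilinearSeries ℂ ℂ ℂ),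
    HasFPowerSeriesAt f p 0 → (∀ i < n, p.coeff i = 0) →
    ∀ z, f z = z ^ n * (Function.swap dslope 0)^[n] f z := by
  induction n with
  | zero => intro f p _ _ z; simp
  | succ n ih =>
    intro f p hp h0 z
    have h1 := ih (Function.swap dslope 0 f) p.fslope hp.has_fpower_series_dslope_fslope
      (fun i hi => by rw [FormalMultilinearSeries.coeff_fslope]; exact h0 (i + 1) (by omega)) z
    rw [Function.iterate_succ_apply]
    have h2 : f z = f 0 + z * dslope f 0 z := by
      have := sub_smul_dslope f 0 z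
      simp only [sub_zero, smul_eq_mul] at this
      rw [this]; ring
    have h3 : f 0 = 0 := by
      have := hp.coeff_zero 1
      rw [← this]
      exact h0 0 (by omega)
    rw [h2, h3, zero_add]
    have h4 : dslope f 0 z = Function.swap dslope 0 f z := rfl
    rw [h4, h1]; ring

/-- the leading term of a nice function whose first `n` coefficients vanish -/
theorem cuspAsymp_tendsto {N : ℕ} [NeZero N] {F : ℍ → ℂ} (hF : CuspNice N F) (n : ℕ)
    (h0 : ∀ i < n, (qExpansion (N : ℝ) F).coeff i = 0) :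
    Filter.Tendsto (fun z : ℍ => F z * (Function.Periodic.qParam (N : ℝ) (z : ℂ)) ^ (-(n : ℤ)))
      atImInfty (nhds ((qExpansion (N : ℝ) F).coeff n)) := by
  have hN : (0 : ℝ) < N := Nat.cast_pos.mpr (NeZero.pos N)
  have hper := cusp_periodic_comp_ofComplex hF.per
  have hp := hF.analyticAt.hasFPowerSeriesAt
  have hco : ∀ i : ℕ, (FormalMultilinearSeries.ofScalars ℂ
      (fun n : ℕ => iteratedDeriv n (cuspFunction (N : ℝ) F) 0 / (n.factorial : ℂ))).coeff i =
      (qExpansion (N : ℝ) F).coeff i := by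
    intro i
    rw [FormalMultilinearSeries.coeff_ofScalars, qExpansion_coeff, div_eq_mul_inv, mul_comm]
  have hg := hp.has_fpower_series_iterate_dslope_fslope n
  have hfac := cuspAsymp_factor n _ _ hp (fun i hi => by rw [hco]; exact h0 i hi)
  have hg0 : (Function.swap dslope 0)^[n] (cuspFunction (N : ℝ) F) 0 =
      (qExpansion (N : ℝ) F).coeff n := by
    have := hg.coeff_zero 1
    rw [← this]
    have h5 := FormalMultilinearSeries.coeff_iterate_fslope (p := FormalMultilinearSeries.ofScalars ℂ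
      (fun n : ℕ => iteratedDeriv n (cuspFunction (N : ℝ) F) 0 / (n.factorial : ℂ))) n 0
    rw [zero_add, hco] at h5
    exact h5
  have hcont := hg.continuousAt.tendsto.comp (qParam_tendsto_atImInfty hN)
  rw [hg0] at hcont
  refine hcont.congr (fun z => ?_)
  have hq : Function.Periodic.qParam (N : ℝ) (z : ℂ) ≠ 0 := Function.Periodic.qParam_ne_zero _
  have h6 := eq_cuspFunction z hN.ne' hper
  simp only [Function.comp_apply]
  rw [← h6, hfac (Function.Periodic.qParam (N : ℝ) (z : ℂ)), zpow_neg, zpow_natCast]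
  field_simp

/-- order of a power series viewed as a Laurent series -/
theorem cuspAsymp_order_ofPowerSeries (p : PowerSeries ℂ) (hp : p ≠ 0) :
    (HahnSeries.ofPowerSeries ℤ ℂ p).order = (p.order.toNat : ℤ) := by
  have hn : p.order = (p.order.toNat : ℕ∞) :=
    (ENat.natCast_toNat (PowerSeries.order_finite_iff_ne_zero.mpr hp).ne).symm
  obtain ⟨hc, hlt⟩ := PowerSeries.order_eq_nat.mp hn
  have hcn : (HahnSeries.ofPowerSeries ℤ ℂ p).coeff (p.order.toNat : ℤ) ≠ 0 := by
    rw [HahnSeries.ofPowerSeries_apply_coeff]; exact hc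
  have hne : HahnSeries.ofPowerSeries ℤ ℂ p ≠ 0 := cuspOrder_ofPowerSeries_ne_zero p hp
  apply le_antisymm (HahnSeries.order_le_of_coeff_ne_zero hcn)
  rw [HahnSeries.le_order_iff_forall hne]
  intro j hj
  by_cases hj0 : 0 ≤ j
  · obtain ⟨m, rfl⟩ := Int.eq_ofNat_of_zero_le hj0
    rw [HahnSeries.ofPowerSeries_apply_coeff]
    exact hlt m (by exact_mod_cast hj)
  · rw [HahnSeries.ofPowerSeries_apply]
    apply HahnSeries.embDomain_of_notMem_range
    rintro ⟨m, hm⟩
    apply hj0
    rw [← hm]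
    exact Int.natCast_nonneg m

/-- the leading term at `i∞` of a nice function, in terms of its Laurent expansion -/
theorem cuspAsymp_tendsto_leading {N : ℕ} [NeZero N] {F : ℍ → ℂ} (hF : CuspNice N F)
    (hP : qExpansion (N : ℝ) F ≠ 0) :
    Filter.Tendsto (fun z : ℍ => F z * (Function.Periodic.qParam (N : ℝ) (z : ℂ)) ^
        (-(HahnSeries.ofPowerSeries ℤ ℂ (qExpansion (N : ℝ) F)).order))
      atImInfty (nhds ((HahnSeries.ofPowerSeries ℤ ℂ (qExpansion (N : ℝ) F)).leadingCoeff)) := by
  have hord := cuspAsymp_order_ofPowerSeries _ hP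
  rw [HahnSeries.leadingCoeff_eq, hord, HahnSeries.ofPowerSeries_apply_coeff]
  apply cuspAsymp_tendsto hF
  intro i hi
  apply PowerSeries.coeff_of_lt_order
  have hn : (qExpansion (N : ℝ) F).order = ((qExpansion (N : ℝ) F).order.toNat : ℕ∞) :=
    (ENat.natCast_toNat (PowerSeries.order_finite_iff_ne_zero.mpr hP).ne).symm
  rw [hn]
  exact_mod_cast hi

theorem cuspAsymp_qExpansion_discriminant_pow_ne_zero (N : ℕ) [NeZero N] (m : ℕ) :
    qExpansion (N : ℝ) (fun z : ℍ => discriminant z ^ m) ≠ 0 := by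
  intro h0
  have h1 : HahnSeries.ofPowerSeries ℤ ℂ (qExpansion (N : ℝ) (fun z : ℍ => discriminant z ^ m)) =
      deltaL N ^ m := by
    rw [cusp_qExpansion_discriminant_pow, map_pow, deltaL]
  rw [h0, map_zero] at h1
  exact pow_ne_zero m (deltaL_ne_zero N) h1.symm

/-- the leading term of `Δ ^ m` -/
theorem cuspAsymp_tendsto_discriminant_pow (N : ℕ) [NeZero N] (m : ℕ) :
    Filter.Tendsto (fun z : ℍ => discriminant z ^ m *
        (Function.Periodic.qParam (N : ℝ) (z : ℂ)) ^ (-((m : ℤ) * N)))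
      atImInfty (nhds ((deltaL N ^ m).leadingCoeff)) := by
  have h1 : HahnSeries.ofPowerSeries ℤ ℂ (qExpansion (N : ℝ) (fun z : ℍ => discriminant z ^ m)) =
      deltaL N ^ m := by
    rw [cusp_qExpansion_discriminant_pow, map_pow, deltaL]
  have h2 := cuspAsymp_tendsto_leading (cuspNice_discriminant_pow N m)
    (cuspAsymp_qExpansion_discriminant_pow_ne_zero N m)
  rw [h1, HahnSeries.order_pow, order_deltaL, nsmul_eq_mul] at h2
  exact h2

/-- the leading term at `i∞` -/
theorem tendsto_mul_qParam_zpow (N : ℕ) [NeZero N] (h : B N) (hne : h ≠ 0) :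
    Filter.Tendsto
      (fun z : ℍ => (h : ℍ → ℂ) z * (Function.Periodic.qParam (N : ℝ) (z : ℂ)) ^ (-(TinfB N h).order))
      atImInfty (nhds ((TinfB N h).coeff (TinfB N h).order)) := by
  have hb := cuspExp_spec h
  have hF := cuspNice_of_mem_B h hb
  have hP := cuspOrder_qExpansion_ne_zero N h hne _ hb
  have h1 := cuspAsymp_tendsto_leading hF hP
  have h2 := cuspAsymp_tendsto_discriminant_pow N (cuspExp h)
  have hspec := TinfB_spec N h _ hb
  have hadd := cuspOrder_order_add N h _ hb hP
  rw [← hspec] at h1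
  rw [hspec, ← hadd, ← hspec, HahnSeries.leadingCoeff_mul] at h1
  have hD : (deltaL N ^ cuspExp h).leadingCoeff ≠ 0 :=
    HahnSeries.leadingCoeff_ne_zero.mpr (pow_ne_zero _ (deltaL_ne_zero N))
  have h3 := h1.div h2 hD
  rw [mul_div_assoc, div_self hD, mul_one, HahnSeries.leadingCoeff_eq] at h3
  refine h3.congr (fun z => ?_)
  have hq : Function.Periodic.qParam (N : ℝ) (z : ℂ) ≠ 0 := Function.Periodic.qParam_ne_zero _
  have hΔ : discriminant z ^ cuspExp h ≠ 0 := pow_ne_zero _ (discriminant_ne_zero z)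
  simp only [Pi.div_apply]
  rw [neg_add, zpow_add₀ hq]
  field_simp

theorem leadingCoeff_TinfB_ne_zero (N : ℕ) [NeZero N] (h : B N) (hne : h ≠ 0) :
    (TinfB N h).coeff (TinfB N h).order ≠ 0 := by
  rw [← HahnSeries.leadingCoeff_eq]
  apply HahnSeries.leadingCoeff_ne_zero.mpr
  intro h0
  exact hne (TinfB_injective N (by rw [h0, map_zero]))

/-- positive powers of `q_N` tend to `0` at `i∞` -/
theorem cuspAsymp_tendsto_qParam_zpow (N : ℕ) [NeZero N] (j : ℤ) (hj : 0 < j) :
    Filter.Tendsto (fun z : ℍ => (Function.Periodic.qParam (N : ℝ) (z : ℂ)) ^ j)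
      atImInfty (nhds 0) := by
  have hN : (0 : ℝ) < N := Nat.cast_pos.mpr (NeZero.pos N)
  obtain ⟨n, rfl⟩ := Int.eq_ofNat_of_zero_le hj.le
  have hn : n ≠ 0 := by rintro rfl; simp at hj
  have h1 := qParam_tendsto_atImInfty hN
  have h2 := h1.pow n
  rw [zero_pow hn] at h2
  refine h2.congr (fun z => ?_)
  rw [zpow_natCast]

/-- a nonzero element of `B N` does not vanish near `i∞` -/
theorem cuspAsymp_eventually_ne_zero (N : ℕ) [NeZero N] (h : B N) (hne : h ≠ 0) :
    ∀ᶠ z : ℍ in atImInfty, (h : ℍ → ℂ) z ≠ 0 := by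
  have h1 := tendsto_mul_qParam_zpow N h hne
  have h2 := h1.eventually_ne (leadingCoeff_TinfB_ne_zero N h hne)
  filter_upwards [h2] with z hz
  intro h0
  rw [h0, zero_mul] at hz
  exact hz rfl

/-- If the expansion of `h` at `i∞` has order `> -m N` then `h * Δ ^ m` tends to `0` at `i∞`. -/
theorem isZeroAtImInfty_mul_discriminant_pow (N : ℕ) [NeZero N] (h : B N) (m : ℕ)
    (ho : -((m : ℤ) * N) < (TinfB N h).order) :
    IsZeroAtImInfty (fun z : ℍ => (h : ℍ → ℂ) z * discriminant z ^ m) := by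
  by_cases hne : h = 0
  · subst hne
    have : (fun z : ℍ => ((0 : B N) : ℍ → ℂ) z * discriminant z ^ m) = fun _ => (0 : ℂ) := by
      funext z
      simp
    rw [this]
    exact tendsto_const_nhds
  have h1 := tendsto_mul_qParam_zpow N h hne
  have h2 := cuspAsymp_tendsto_discriminant_pow N m
  have h3 := cuspAsymp_tendsto_qParam_zpow N ((TinfB N h).order + (m : ℤ) * N) (by linarith)
  have h4 := (h1.mul h2).mul h3
  rw [mul_zero] at h4
  refine h4.congr (fun z => ?_)
  have hq : Function.Periodic.qParam (N : ℝ) (z : ℂ) ≠ 0 := Function.Periodic.qParam_ne_zero _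
  rw [zpow_add₀ hq, zpow_neg, zpow_neg]
  field_simp

/-- Quotients: if `g * u = v` with `u, v ∈ B N`, `u ≠ 0`, and the order of `v` at `i∞` exceeds
that of `u` by more than `k`, then `g * q_N ^ (-k)` tends to `0` at `i∞`. -/
theorem tendsto_zero_of_mul_eq (N : ℕ) [NeZero N] (g : ℍ → ℂ) (u v : B N) (hu : u ≠ 0)
    (h : ∀ z : ℍ, g z * (u : ℍ → ℂ) z = (v : ℍ → ℂ) z) (k : ℤ)
    (ho : (TinfB N u).order + k < (TinfB N v).order) :
    Filter.Tendsto
      (fun z : ℍ => g z * (Function.Periodic.qParam (N : ℝ) (z : ℂ)) ^ (-k)) atImInfty (nhds 0) := by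
  have hu0 := cuspAsymp_eventually_ne_zero N u hu
  by_cases hv : v = 0
  · subst hv
    have : ∀ᶠ z : ℍ in atImInfty,
        (0 : ℂ) = g z * (Function.Periodic.qParam (N : ℝ) (z : ℂ)) ^ (-k) := by
      filter_upwards [hu0] with z hz
      have h1 := h z
      have h2 : ((0 : B N) : ℍ → ℂ) z = 0 := rfl
      rw [h2] at h1
      rcases mul_eq_zero.mp h1 with h3 | h3
      · rw [h3, zero_mul]
      · exact absurd h3 hz
    exact Filter.Tendsto.congr' this tendsto_const_nhds
  have h1 := tendsto_mul_qParam_zpow N v hv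
  have h2 := tendsto_mul_qParam_zpow N u hu
  have h3 := cuspAsymp_tendsto_qParam_zpow N ((TinfB N v).order - (TinfB N u).order - k)
    (by linarith)
  have h4 := (h1.div h2 (leadingCoeff_TinfB_ne_zero N u hu)).mul h3
  rw [mul_zero] at h4
  refine Filter.Tendsto.congr' ?_ h4
  filter_upwards [hu0] with z hz
  have hq : Function.Periodic.qParam (N : ℝ) (z : ℂ) ≠ 0 := Function.Periodic.qParam_ne_zero _
  simp only [Pi.div_apply]
  rw [← h z, sub_eq_add_neg, sub_eq_add_neg, zpow_add₀ hq, zpow_add₀ hq]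
  simp only [zpow_neg]
  field_simp

/-- the coefficient of `q_N ^ N` in the expansion of `Δ` is `1` -/
theorem coeff_deltaL (N : ℕ) [NeZero N] : (deltaL N).coeff (N : ℤ) = 1 := by
  have hN : 0 < N := NeZero.pos N
  have hc : ∀ n : ℕ, (qExpansion (N : ℝ) discriminant).coeff n =
      if N ∣ n then (qExpansion 1 discriminant).coeff (n / N) else 0 := by
    intro n
    have := UpperHalfPlane.qExpansion_coeff_nat_mul (h := 1) one_pos
      (F := discriminant) (by simpa using cusp_periodic_comp_ofComplex (cusp_discriminant_vadd 1))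
      mdiff_discriminant discriminant_isZeroAtImInfty.boundedAtFilter hN n
    simpa using this
  rw [deltaL, HahnSeries.ofPowerSeries_apply_coeff, hc N, if_pos dvd_rfl, Nat.div_self hN,
    discriminant_qExpansion_coeff_one]

/-- `Δ(z) q_N(z)^(-N) → 1` at `i∞` -/
theorem tendsto_discriminant_mul_qParam_zpow (N : ℕ) [NeZero N] :
    Filter.Tendsto (fun z : ℍ => discriminant z *
        (Function.Periodic.qParam (N : ℝ) (z : ℂ)) ^ (-(N : ℤ))) atImInfty (nhds 1) := by
  have h := cuspAsymp_tendsto_discriminant_pow N 1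
  rw [pow_one, HahnSeries.leadingCoeff_eq, order_deltaL, coeff_deltaL] at h
  refine h.congr (fun z => ?_)
  simp

end Fermat.Agent.X0Fld
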