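import Fermat.Agent.X0Fld.Defs

/-!
# The action of `SL(2,ℤ)` on `B N` and on its fraction field (package FLD)
-/

set_option autoImplicit false

open UpperHalfPlane ModularForm CongruenceSubgroup
open scoped MatrixGroups Manifold

namespace Fermat.Agent.X0Fld

/-- The action of `γ` on `B N` as an algebra homomorphism (auxiliary to `actB`). -/
noncomputable def actBHom (N : ℕ) (γ : SL(2, ℤ)) : B N →ₐ[ℂ] B N where
  toFun h := ⟨act γ h, h.2.act γ⟩
  map_one' := Subtype.ext rfl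
  map_mul' _ _ := Subtype.ext rfl
  map_zero' := Subtype.ext rfl
  map_add' _ _ := Subtype.ext rfl
  commutes' _ := Subtype.ext rfl

theorem coe_actBHom (N : ℕ) (γ : SL(2, ℤ)) (h : B N) :
    ((actBHom N γ h : B N) : ℍ → ℂ) = act γ (h : ℍ → ℂ) := rfl

theorem actBHom_comp_inv (N : ℕ) (γ δ : SL(2, ℤ)) (hγδ : γ * δ = 1) :
    (actBHom N γ).comp (actBHom N δ) = AlgHom.id ℂ (B N) := by
  ext h : 1
  apply Subtype.ext
  show act γ (act δ (h : ℍ → ℂ)) = (h : ℍ → ℂ)
  rw [← act_mul, hγδ, act_one]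

/-- The action of `γ` on `B N`: `h ↦ h ∘ (γ⁻¹ • ·)`, as an algebra automorphism. -/
noncomputable def actB (N : ℕ) (γ : SL(2, ℤ)) : B N ≃ₐ[ℂ] B N :=
  AlgEquiv.ofAlgHom (actBHom N γ) (actBHom N γ⁻¹)
    (actBHom_comp_inv N γ γ⁻¹ (mul_inv_cancel γ))
    (actBHom_comp_inv N γ⁻¹ γ (inv_mul_cancel γ))

theorem coe_actB (N : ℕ) (γ : SL(2, ℤ)) (h : B N) :
    ((actB N γ h : B N) : ℍ → ℂ) = act γ (h : ℍ → ℂ) := rfl

theorem actB_one (N : ℕ) : actB N 1 = AlgEquiv.refl := by
  ext h : 1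
  apply Subtype.ext
  rw [coe_actB, act_one]
  rfl

theorem actB_mul (N : ℕ) (γ δ : SL(2, ℤ)) : actB N (γ * δ) = (actB N δ).trans (actB N γ) := by
  ext h : 1
  apply Subtype.ext
  rw [coe_actB, act_mul]
  rfl

/-- `Γ(N)` acts trivially on `B N`. -/
theorem actB_of_mem_Gamma (N : ℕ) {γ : SL(2, ℤ)} (hγ : γ ∈ Gamma N) (h : B N) :
    actB N γ h = h := by
  apply Subtype.ext
  rw [coe_actB]
  funext z
  rw [act_apply]
  exact h.2.inv γ⁻¹ ((Gamma N).inv_mem hγ) z

/-- every orbit in `B N` is finite (the action factors through `SL(2,ℤ)/Γ(N)`). -/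
theorem finite_orbit (N : ℕ) [NeZero N] (h : B N) :
    (Set.range fun γ : SL(2, ℤ) => actB N γ h).Finite := by
  have : Finite (SL(2, ℤ) ⧸ Gamma N) := Subgroup.finite_quotient_of_finiteIndex
  let F : SL(2, ℤ) ⧸ Gamma N → B N :=
    Quotient.lift (s := QuotientGroup.leftRel (Gamma N)) (fun γ : SL(2, ℤ) => actB N γ h) (by
      intro a b hab
      have hab' : a⁻¹ * b ∈ Gamma N := QuotientGroup.leftRel_apply.mp hab
      show actB N a h = actB N b h
      have hb : b = a * (a⁻¹ * b) := by group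
      rw [hb, actB_mul]
      show actB N a h = actB N a (actB N (a⁻¹ * b) h)
      rw [actB_of_mem_Gamma N hab' h])
  refine (Set.finite_range F).subset ?_
  rintro _ ⟨γ, rfl⟩
  exact ⟨QuotientGroup.mk γ, rfl⟩

/-- Two algebra automorphisms of `Fld N` agreeing on `B N` are equal. -/
theorem actB_fld_algEquiv_ext (N : ℕ) {f g : Fld N ≃ₐ[ℂ] Fld N}
    (hfg : ∀ h : B N, f (algebraMap (B N) (Fld N) h) = g (algebraMap (B N) (Fld N) h)) :
    f = g := by
  have key : (f : Fld N →+* Fld N) = (g : Fld N →+* Fld N) :=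
    IsLocalization.ringHom_ext (nonZeroDivisors (B N)) (RingHom.ext fun h => hfg h)
  exact AlgEquiv.ext fun x => RingHom.congr_fun key x

/-- The action of `SL(2,ℤ)` on the field of modular functions of level `Γ(N)`. -/
noncomputable def rho (N : ℕ) : SL(2, ℤ) →* (Fld N ≃ₐ[ℂ] Fld N) where
  toFun γ := IsFractionRing.algEquivOfAlgEquiv (K := Fld N) (L := Fld N) (actB N γ)
  map_one' := by
    refine actB_fld_algEquiv_ext N fun h => ?_
    rw [IsFractionRing.algEquivOfAlgEquiv_algebraMap, actB_one]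
    rfl
  map_mul' γ δ := by
    refine actB_fld_algEquiv_ext N fun h => ?_
    show IsFractionRing.algEquivOfAlgEquiv (K := Fld N) (L := Fld N) (actB N (γ * δ))
        (algebraMap (B N) (Fld N) h) =
      IsFractionRing.algEquivOfAlgEquiv (K := Fld N) (L := Fld N) (actB N γ)
        (IsFractionRing.algEquivOfAlgEquiv (K := Fld N) (L := Fld N) (actB N δ)
          (algebraMap (B N) (Fld N) h))
    rw [IsFractionRing.algEquivOfAlgEquiv_algebraMap, IsFractionRing.algEquivOfAlgEquiv_algebraMap,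
      IsFractionRing.algEquivOfAlgEquiv_algebraMap, actB_mul]
    rfl

theorem rho_algebraMap (N : ℕ) (γ : SL(2, ℤ)) (h : B N) :
    rho N γ (algebraMap (B N) (Fld N) h) = algebraMap (B N) (Fld N) (actB N γ h) :=
  IsFractionRing.algEquivOfAlgEquiv_algebraMap (K := Fld N) (L := Fld N) (actB N γ) h

end Fermat.Agent.X0Fld
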