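import Mathlib

/-!
# Rescaling the variable of a Laurent series (package FLD, pure algebra)

`rescaleL a : K((w)) →ₐ[K] K((w))`, `w ↦ a w`, for a unit `a`.
-/

set_option autoImplicit false

namespace Fermat.Agent.X0Fld

variable {K : Type*} [Field K]

/-- Coefficientwise rescaling of a Laurent series (auxiliary function underlying `rescaleL`). -/
noncomputable def rescaleLFun (a : Kˣ) (x : LaurentSeries K) : LaurentSeries K where
  coeff n := ((a : K)) ^ n * x.coeff n
  isPWO_support' := by
    have h : Function.support (fun n : ℤ => ((a : K)) ^ n * x.coeff n) = x.support := by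
      ext n
      simp [zpow_ne_zero]
    rw [h]
    exact x.isPWO_support

theorem rescaleLFun_coeff (a : Kˣ) (x : LaurentSeries K) (n : ℤ) :
    (rescaleLFun a x).coeff n = ((a : K)) ^ n * x.coeff n := rfl

theorem rescaleLFun_support (a : Kˣ) (x : LaurentSeries K) :
    (rescaleLFun a x).support = x.support := by
  ext n
  simp [rescaleLFun_coeff, zpow_ne_zero]

theorem rescaleLFun_mul (a : Kˣ) (x y : LaurentSeries K) :
    rescaleLFun a (x * y) = rescaleLFun a x * rescaleLFun a y := by
  ext n
  rw [rescaleLFun_coeff, HahnSeries.coeff_mul, HahnSeries.coeff_mul, Finset.mul_sum]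
  refine Finset.sum_congr ?_ fun ij hij => ?_
  · ext ij
    simp only [Finset.mem_antidiagonal, rescaleLFun_support]
  have hn : ij.1 + ij.2 = n := (Finset.mem_antidiagonal.mp hij).2.2
  rw [rescaleLFun_coeff, rescaleLFun_coeff, ← hn, zpow_add₀ a.ne_zero]
  ring

/-- The substitution `w ↦ a w` on Laurent series. -/
noncomputable def rescaleL (a : Kˣ) : LaurentSeries K →ₐ[K] LaurentSeries K where
  toFun := rescaleLFun a
  map_one' := by
    ext n
    rw [rescaleLFun_coeff, HahnSeries.coeff_one]
    split_ifs with h
    · simp [h]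
    · simp
  map_mul' := rescaleLFun_mul a
  map_zero' := by
    ext n
    simp [rescaleLFun_coeff]
  map_add' x y := by
    ext n
    simp [rescaleLFun_coeff, mul_add]
  commutes' c := by
    ext n
    rw [LaurentSeries.algebraMap_apply, rescaleLFun_coeff, HahnSeries.C_apply,
      HahnSeries.coeff_single]
    split_ifs with h
    · simp [h]
    · simp

theorem coeff_rescaleL (a : Kˣ) (x : LaurentSeries K) (n : ℤ) :
    (rescaleL a x).coeff n = ((a : K)) ^ n * x.coeff n := rfl

theorem rescaleL_ofPowerSeries (a : Kˣ) (p : PowerSeries K) :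
    rescaleL a (HahnSeries.ofPowerSeries ℤ K p) =
      HahnSeries.ofPowerSeries ℤ K (PowerSeries.rescale (a : K) p) := by
  ext n
  rw [coeff_rescaleL, PowerSeries.coeff_coe, PowerSeries.coeff_coe]
  split_ifs with h
  · simp
  · rw [PowerSeries.coeff_rescale]
    congr 1
    have hn : (n.natAbs : ℤ) = n := Int.natAbs_of_nonneg (not_lt.mp h)
    conv_lhs => rw [← hn]
    exact zpow_natCast _ _

/-- Two algebra maps from a field into Laurent series which are intertwined by a rescaling
on a subring generating the field are intertwined everywhere: coefficient form. -/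
theorem coeff_eq_of_rescale {A 𝔉 : Type*} [CommRing A] [Field 𝔉] [Algebra A 𝔉]
    [IsFractionRing A 𝔉] (f g : 𝔉 →+* LaurentSeries K) (a : Kˣ)
    (h : ∀ x : A, g (algebraMap A 𝔉 x) = rescaleL a (f (algebraMap A 𝔉 x))) (x : 𝔉) (n : ℤ) :
    (g x).coeff n = ((a : K)) ^ n * (f x).coeff n := by
  have hfg : g = ((rescaleL a : LaurentSeries K →+* LaurentSeries K)).comp f := by
    apply IsLocalization.ringHom_ext (nonZeroDivisors A)
    exact RingHom.ext fun y => h y
  rw [hfg, RingHom.comp_apply]
  exact coeff_rescaleL a (f x) n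

end Fermat.Agent.X0Fld
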