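import Fermat.Agent.X0Fld.Action
import Fermat.Agent.X0Fld.Rescale
import Fermat.Prelude.Thm_UpperHalfPlane_qExpansion_coeff_nat_mul

/-!
# Expansion at the cusp `i∞` in `q_N = exp(2πi z / N)` (package FLD)

For `h ∈ B N` and `m` with `h * Δ ^ m` bounded at `i∞`, the expansion is
`qExpansion N (h * Δ ^ m) / (qExpansion N Δ) ^ m ∈ ℂ((q_N))`.
-/

set_option autoImplicit false

open UpperHalfPlane ModularForm CongruenceSubgroup
open scoped MatrixGroups Manifold

namespace Fermat.Agent.X0Fld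

/-- The `q_N`-expansion of `Δ`, as a Laurent series. -/
noncomputable def deltaL (N : ℕ) : LaurentSeries ℂ :=
  HahnSeries.ofPowerSeries ℤ ℂ (qExpansion (N : ℝ) discriminant)

/-! ### Auxiliary material: `N`-periodic holomorphic functions bounded at `i∞` -/

/-- A function which is invariant under `z ↦ z + N` gives an `N`-periodic function on `ℂ`. -/
theorem cusp_periodic_comp_ofComplex {f : ℍ → ℂ} {N : ℕ}
    (hper : ∀ z : ℍ, f ((N : ℝ) +ᵥ z) = f z) :
    Function.Periodic (f ∘ ofComplex) ((N : ℝ) : ℂ) := by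
  intro w
  by_cases hw : 0 < w.im
  · have hw' : 0 < (w + ((N : ℝ) : ℂ)).im := by simpa using hw
    simp only [Function.comp_apply, ofComplex_apply_of_im_pos hw', ofComplex_apply_of_im_pos hw]
    rw [← hper ⟨w, hw⟩]
    congr 1
    ext
    simp [add_comm]
  · have hw0 : w.im ≤ 0 := not_lt.mp hw
    have hw' : (w + ((N : ℝ) : ℂ)).im ≤ 0 := by simpa using hw0
    rw [Function.comp_apply, Function.comp_apply, ofComplex_apply_of_im_nonpos hw',
      ofComplex_apply_of_im_nonpos hw0]

/-- `Δ` is invariant under `z ↦ z + N`. -/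
theorem cusp_discriminant_vadd (N : ℕ) (z : ℍ) :
    discriminant ((N : ℝ) +ᵥ z) = discriminant z := by
  have h1 : ((N : ℤ) : ℝ) ∈ (𝒮ℒ).strictPeriods := by
    rw [Subgroup.strictPeriods_SL2Z]
    exact ⟨(N : ℤ), by simp⟩
  have := SlashInvariantForm.vAdd_apply_of_mem_strictPeriods CuspForm.discriminant z h1
  simpa using this

/-- The class of functions to which the `q_N`-expansion machinery applies. -/
structure CuspNice (N : ℕ) (f : ℍ → ℂ) : Prop where
  per : ∀ z : ℍ, f ((N : ℝ) +ᵥ z) = f z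
  mdiff : MDiff f
  bdd : IsBoundedAtImInfty f

theorem CuspNice.analyticAt {N : ℕ} [NeZero N] {f : ℍ → ℂ} (hf : CuspNice N f) :
    AnalyticAt ℂ (cuspFunction (N : ℝ) f) 0 :=
  analyticAt_cuspFunction_zero (Nat.cast_pos.mpr (NeZero.pos N))
    (cusp_periodic_comp_ofComplex hf.per) hf.mdiff hf.bdd

theorem CuspNice.mul {N : ℕ} {f g : ℍ → ℂ} (hf : CuspNice N f) (hg : CuspNice N g) :
    CuspNice N (f * g) where
  per := fun z => by rw [Pi.mul_apply, Pi.mul_apply, hf.per, hg.per]
  mdiff := hf.mdiff.mul hg.mdiff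
  bdd := hf.bdd.mul hg.bdd

theorem CuspNice.add {N : ℕ} {f g : ℍ → ℂ} (hf : CuspNice N f) (hg : CuspNice N g) :
    CuspNice N (f + g) where
  per := fun z => by rw [Pi.add_apply, Pi.add_apply, hf.per, hg.per]
  mdiff := hf.mdiff.add hg.mdiff
  bdd := hf.bdd.add hg.bdd

theorem cuspNice_discriminant (N : ℕ) : CuspNice N discriminant where
  per := cusp_discriminant_vadd N
  mdiff := mdiff_discriminant
  bdd := discriminant_isZeroAtImInfty.boundedAtFilter

theorem cuspNice_discriminant_pow (N : ℕ) (k : ℕ) :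
    CuspNice N (fun z : ℍ => discriminant z ^ k) where
  per := fun z => by rw [cusp_discriminant_vadd]
  mdiff := mdiff_discriminant.pow k
  bdd := bdd_discriminant_pow k

theorem cusp_qExpansion_mul {N : ℕ} [NeZero N] {f g : ℍ → ℂ} (hf : CuspNice N f)
    (hg : CuspNice N g) :
    qExpansion (N : ℝ) (fun z => f z * g z) = qExpansion (N : ℝ) f * qExpansion (N : ℝ) g :=
  qExpansion_mul hf.analyticAt hg.analyticAt

theorem cusp_qExpansion_add {N : ℕ} [NeZero N] {f g : ℍ → ℂ} (hf : CuspNice N f)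
    (hg : CuspNice N g) :
    qExpansion (N : ℝ) (fun z => f z + g z) = qExpansion (N : ℝ) f + qExpansion (N : ℝ) g :=
  qExpansion_add hf.analyticAt hg.analyticAt

theorem cusp_qExpansion_discriminant_pow (N : ℕ) [NeZero N] (k : ℕ) :
    qExpansion (N : ℝ) (fun z : ℍ => discriminant z ^ k) =
      qExpansion (N : ℝ) discriminant ^ k := by
  induction k with
  | zero =>
    have : (fun z : ℍ => discriminant z ^ 0) = (1 : ℍ → ℂ) := by funext z; simp
    rw [this, qExpansion_one, pow_zero]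
  | succ n ih =>
    have : (fun z : ℍ => discriminant z ^ (n + 1)) =
        fun z : ℍ => discriminant z ^ n * discriminant z := by funext z; rw [pow_succ]
    rw [this, cusp_qExpansion_mul (cuspNice_discriminant_pow N n) (cuspNice_discriminant N), ih,
      pow_succ]

/-- `ofPowerSeries (qExpansion N (f * Δ ^ k)) = ofPowerSeries (qExpansion N f) * deltaL N ^ k`. -/
theorem cusp_ofPowerSeries_mul_discriminant_pow {N : ℕ} [NeZero N] {f : ℍ → ℂ}
    (hf : CuspNice N f) (k : ℕ) :
    HahnSeries.ofPowerSeries ℤ ℂ (qExpansion (N : ℝ) (fun z => f z * discriminant z ^ k)) =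
      HahnSeries.ofPowerSeries ℤ ℂ (qExpansion (N : ℝ) f) * deltaL N ^ k := by
  rw [cusp_qExpansion_mul hf (cuspNice_discriminant_pow N k), cusp_qExpansion_discriminant_pow,
    map_mul, map_pow, deltaL]

theorem order_deltaL (N : ℕ) [NeZero N] : (deltaL N).order = (N : ℤ) := by
  have hN : 0 < N := NeZero.pos N
  have hc : ∀ n : ℕ, (qExpansion (N : ℝ) discriminant).coeff n =
      if N ∣ n then (qExpansion 1 discriminant).coeff (n / N) else 0 := by
    intro n
    have := UpperHalfPlane.qExpansion_coeff_nat_mul (h := 1) one_pos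
      (F := discriminant) (by simpa using cusp_periodic_comp_ofComplex (cusp_discriminant_vadd 1))
      mdiff_discriminant discriminant_isZeroAtImInfty.boundedAtFilter hN n
    simpa using this
  have hcN : (deltaL N).coeff (N : ℤ) = 1 := by
    rw [deltaL, HahnSeries.ofPowerSeries_apply_coeff, hc N, if_pos dvd_rfl, Nat.div_self hN,
      discriminant_qExpansion_coeff_one]
  have hne : deltaL N ≠ 0 := by
    intro h0
    rw [h0] at hcN
    simp at hcN
  apply le_antisymm
  · exact HahnSeries.order_le_of_coeff_ne_zero (by rw [hcN]; exact one_ne_zero)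
  · rw [HahnSeries.le_order_iff_forall hne]
    intro j hj
    rw [deltaL, PowerSeries.coeff_coe]
    split_ifs with h
    · rfl
    · have hj0 : 0 ≤ j := not_lt.mp h
      have hjn : j.natAbs < N := by omega
      rw [hc]
      split_ifs with hd
      · have h0 : j.natAbs = 0 := Nat.eq_zero_of_dvd_of_lt hd hjn
        rw [h0, Nat.zero_div]
        apply PowerSeries.coeff_of_lt_order
        rw [discriminant_qExpansion_order]
        exact zero_lt_one
      · rfl

theorem deltaL_ne_zero (N : ℕ) [NeZero N] : deltaL N ≠ 0 := by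
  intro h0
  have h1 := order_deltaL N
  rw [h0, HahnSeries.order_zero] at h1
  exact (NeZero.ne N) (by exact_mod_cast h1.symm)

/-- elements of `B N` are `N`-periodic -/
theorem periodic_of_mem_B (N : ℕ) (h : B N) (z : ℍ) :
    (h : ℍ → ℂ) ((N : ℝ) +ᵥ z) = (h : ℍ → ℂ) z := by
  have hmem : ModularGroup.T ^ (N : ℤ) ∈ Gamma N := by
    rw [Gamma_mem, ModularGroup.coe_T_zpow]
    simp
  have h1 := h.2.inv _ hmem z
  rw [UpperHalfPlane.modular_T_zpow_smul] at h1
  simpa using h1

/-- For `h ∈ B N` and `m` with `h * Δ ^ m` bounded, the function `h * Δ ^ m` is nice. -/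
theorem cuspNice_of_mem_B {N : ℕ} (h : B N) {m : ℕ}
    (hm : IsBoundedAtImInfty (fun z : ℍ => (h : ℍ → ℂ) z * discriminant z ^ m)) :
    CuspNice N (fun z : ℍ => (h : ℍ → ℂ) z * discriminant z ^ m) where
  per := fun z => by rw [periodic_of_mem_B, cusp_discriminant_vadd]
  mdiff := h.2.mdiff.mul (mdiff_discriminant.pow m)
  bdd := hm

/-- every element of `B N` becomes bounded at `i∞` after multiplication by a power of `Δ`. -/
theorem cusp_exists_bdd {N : ℕ} (h : B N) :
    ∃ m : ℕ, IsBoundedAtImInfty (fun z : ℍ => (h : ℍ → ℂ) z * discriminant z ^ m) := by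
  obtain ⟨m, hm⟩ := h.2.bdd
  refine ⟨m, ?_⟩
  have := hm 1
  simpa only [one_smul] using this

/-- A chosen exponent `m` such that `h * Δ ^ m` is bounded at `i∞`. -/
noncomputable def cuspExp {N : ℕ} (h : B N) : ℕ := Classical.choose (cusp_exists_bdd h)

theorem cuspExp_spec {N : ℕ} (h : B N) :
    IsBoundedAtImInfty (fun z : ℍ => (h : ℍ → ℂ) z * discriminant z ^ cuspExp h) :=
  Classical.choose_spec (cusp_exists_bdd h)

/-- The underlying function of `TinfB`. -/
noncomputable def TinfFun (N : ℕ) (h : B N) : LaurentSeries ℂ :=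
  HahnSeries.ofPowerSeries ℤ ℂ
    (qExpansion (N : ℝ) (fun z : ℍ => (h : ℍ → ℂ) z * discriminant z ^ cuspExp h)) *
    (deltaL N)⁻¹ ^ cuspExp h

theorem cusp_cross {N : ℕ} [NeZero N] (h : B N) {m m' : ℕ}
    (hm : IsBoundedAtImInfty (fun z : ℍ => (h : ℍ → ℂ) z * discriminant z ^ m))
    (hm' : IsBoundedAtImInfty (fun z : ℍ => (h : ℍ → ℂ) z * discriminant z ^ m')) :
    HahnSeries.ofPowerSeries ℤ ℂ
        (qExpansion (N : ℝ) (fun z : ℍ => (h : ℍ → ℂ) z * discriminant z ^ m)) * deltaL N ^ m' =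
      HahnSeries.ofPowerSeries ℤ ℂ
        (qExpansion (N : ℝ) (fun z : ℍ => (h : ℍ → ℂ) z * discriminant z ^ m')) * deltaL N ^ m := by
  rw [← cusp_ofPowerSeries_mul_discriminant_pow (cuspNice_of_mem_B h hm) m',
    ← cusp_ofPowerSeries_mul_discriminant_pow (cuspNice_of_mem_B h hm') m]
  congr 2
  funext z
  ring

theorem TinfFun_spec (N : ℕ) [NeZero N] (h : B N) (m : ℕ)
    (hm : IsBoundedAtImInfty (fun z : ℍ => (h : ℍ → ℂ) z * discriminant z ^ m)) :
    TinfFun N h * deltaL N ^ m =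
      HahnSeries.ofPowerSeries ℤ ℂ
        (qExpansion (N : ℝ) (fun z : ℍ => (h : ℍ → ℂ) z * discriminant z ^ m)) := by
  have hne := deltaL_ne_zero N
  have hc := cusp_cross (N := N) h (cuspExp_spec h) hm
  rw [TinfFun, mul_right_comm, hc, mul_assoc, inv_pow,
    mul_inv_cancel₀ (pow_ne_zero _ hne), mul_one]

theorem TinfFun_eq_of_mul_eq (N : ℕ) [NeZero N] (h : B N) (m : ℕ)
    (hm : IsBoundedAtImInfty (fun z : ℍ => (h : ℍ → ℂ) z * discriminant z ^ m))
    (x : LaurentSeries ℂ)
    (hx : x * deltaL N ^ m = HahnSeries.ofPowerSeries ℤ ℂ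
        (qExpansion (N : ℝ) (fun z : ℍ => (h : ℍ → ℂ) z * discriminant z ^ m))) :
    TinfFun N h = x := by
  have hne := pow_ne_zero m (deltaL_ne_zero N)
  exact mul_right_cancel₀ hne ((TinfFun_spec N h m hm).trans hx.symm)

theorem cusp_bdd_mul_pow {f : ℍ → ℂ} {m : ℕ}
    (hm : IsBoundedAtImInfty (fun z : ℍ => f z * discriminant z ^ m)) (k : ℕ) :
    IsBoundedAtImInfty (fun z : ℍ => f z * discriminant z ^ (m + k)) := by
  have := hm.mul (bdd_discriminant_pow k)
  refine this.congr' (Filter.Eventually.of_forall fun z => ?_) (Filter.EventuallyEq.refl _ _)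
  simp [pow_add, mul_assoc]

theorem cusp_bdd_mul_pow' {f : ℍ → ℂ} {m : ℕ}
    (hm : IsBoundedAtImInfty (fun z : ℍ => f z * discriminant z ^ m)) (k : ℕ) :
    IsBoundedAtImInfty (fun z : ℍ => f z * discriminant z ^ (k + m)) := by
  rw [add_comm]; exact cusp_bdd_mul_pow hm k

theorem TinfFun_algebraMap (N : ℕ) [NeZero N] (c : ℂ) :
    TinfFun N (algebraMap ℂ (B N) c) = algebraMap ℂ (LaurentSeries ℂ) c := by
  have hfun : (fun z : ℍ => ((algebraMap ℂ (B N) c : B N) : ℍ → ℂ) z * discriminant z ^ 0) =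
      c • (1 : ℍ → ℂ) := by
    funext z
    simp
  have hb : IsBoundedAtImInfty
      (fun z : ℍ => ((algebraMap ℂ (B N) c : B N) : ℍ → ℂ) z * discriminant z ^ 0) := by
    rw [hfun]
    have := Filter.const_boundedAtFilter atImInfty c
    refine this.congr' (Filter.Eventually.of_forall fun z => ?_) (Filter.EventuallyEq.refl _ _)
    simp
  apply TinfFun_eq_of_mul_eq N _ 0 hb
  have h1 : AnalyticAt ℂ (cuspFunction (N : ℝ) (1 : ℍ → ℂ)) 0 := by
    have : CuspNice N (1 : ℍ → ℂ) :=
      ⟨fun _ => rfl, mdifferentiable_const, Filter.const_boundedAtFilter atImInfty (1 : ℂ)⟩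
    exact this.analyticAt
  rw [hfun, qExpansion_smul h1, qExpansion_one, pow_zero, mul_one, HahnSeries.algebraMap_apply',
    Algebra.algebraMap_eq_smul_one]

theorem TinfFun_mul (N : ℕ) [NeZero N] (h₁ h₂ : B N) :
    TinfFun N (h₁ * h₂) = TinfFun N h₁ * TinfFun N h₂ := by
  have hb1 := cuspExp_spec h₁
  have hb2 := cuspExp_spec h₂
  have hfun : (fun z : ℍ => ((h₁ * h₂ : B N) : ℍ → ℂ) z *
      discriminant z ^ (cuspExp h₁ + cuspExp h₂)) =
      fun z : ℍ => ((h₁ : ℍ → ℂ) z * discriminant z ^ cuspExp h₁) *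
        ((h₂ : ℍ → ℂ) z * discriminant z ^ cuspExp h₂) := by
    funext z
    simp [pow_add]
    ring
  have hb : IsBoundedAtImInfty (fun z : ℍ => ((h₁ * h₂ : B N) : ℍ → ℂ) z *
      discriminant z ^ (cuspExp h₁ + cuspExp h₂)) := by
    rw [hfun]; exact hb1.mul hb2
  apply TinfFun_eq_of_mul_eq N _ _ hb
  rw [hfun, cusp_qExpansion_mul (cuspNice_of_mem_B h₁ hb1) (cuspNice_of_mem_B h₂ hb2), map_mul,
    ← TinfFun_spec N h₁ _ hb1, ← TinfFun_spec N h₂ _ hb2, pow_add]
  ring

theorem TinfFun_add (N : ℕ) [NeZero N] (h₁ h₂ : B N) :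
    TinfFun N (h₁ + h₂) = TinfFun N h₁ + TinfFun N h₂ := by
  have hb1 := cusp_bdd_mul_pow (cuspExp_spec h₁) (cuspExp h₂)
  have hb2 := cusp_bdd_mul_pow' (cuspExp_spec h₂) (cuspExp h₁)
  have hfun : (fun z : ℍ => ((h₁ + h₂ : B N) : ℍ → ℂ) z *
      discriminant z ^ (cuspExp h₁ + cuspExp h₂)) =
      fun z : ℍ => ((h₁ : ℍ → ℂ) z * discriminant z ^ (cuspExp h₁ + cuspExp h₂)) +
        ((h₂ : ℍ → ℂ) z * discriminant z ^ (cuspExp h₁ + cuspExp h₂)) := by
    funext z
    simp [add_mul]
  have hb : IsBoundedAtImInfty (fun z : ℍ => ((h₁ + h₂ : B N) : ℍ → ℂ) z *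
      discriminant z ^ (cuspExp h₁ + cuspExp h₂)) := by
    rw [hfun]; exact hb1.add hb2
  apply TinfFun_eq_of_mul_eq N _ _ hb
  rw [hfun, cusp_qExpansion_add (cuspNice_of_mem_B h₁ hb1) (cuspNice_of_mem_B h₂ hb2), map_add,
    ← TinfFun_spec N h₁ _ hb1, ← TinfFun_spec N h₂ _ hb2, add_mul]

/-- The expansion at `i∞` of the elements of `B N`. -/
noncomputable def TinfB (N : ℕ) [NeZero N] : B N →ₐ[ℂ] LaurentSeries ℂ :=
  { toFun := TinfFun N
    map_one' := by
      have := TinfFun_algebraMap N 1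
      rw [map_one, map_one] at this
      exact this
    map_mul' := TinfFun_mul N
    map_zero' := by
      have := TinfFun_algebraMap N 0
      rw [map_zero, map_zero] at this
      exact this
    map_add' := TinfFun_add N
    commutes' := TinfFun_algebraMap N }

theorem TinfB_apply (N : ℕ) [NeZero N] (h : B N) : TinfB N h = TinfFun N h := rfl

/-- Characterization of `TinfB`: for every `m` such that `h * Δ ^ m` is bounded at `i∞`. -/
theorem TinfB_spec (N : ℕ) [NeZero N] (h : B N) (m : ℕ)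
    (hm : IsBoundedAtImInfty (fun z : ℍ => (h : ℍ → ℂ) z * discriminant z ^ m)) :
    TinfB N h * deltaL N ^ m =
      HahnSeries.ofPowerSeries ℤ ℂ
        (qExpansion (N : ℝ) (fun z : ℍ => (h : ℍ → ℂ) z * discriminant z ^ m)) :=
  TinfFun_spec N h m hm

theorem TinfB_injective (N : ℕ) [NeZero N] : Function.Injective (TinfB N) := by
  rw [injective_iff_map_eq_zero]
  intro h h0
  have hb := cuspExp_spec h
  have hs := TinfB_spec N h _ hb
  rw [h0, zero_mul] at hs
  have hq : qExpansion (N : ℝ) (fun z : ℍ => (h : ℍ → ℂ) z * discriminant z ^ cuspExp h) = 0 := by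
    apply HahnSeries.ofPowerSeries_injective (Γ := ℤ)
    rw [← hs, map_zero]
  have hnice := cuspNice_of_mem_B h hb
  rw [qExpansion_eq_zero_iff (Nat.cast_pos.mpr (NeZero.pos N))
    (cusp_periodic_comp_ofComplex hnice.per) hnice.mdiff hnice.bdd] at hq
  apply Subtype.ext
  funext z
  have hz := congrFun hq z
  simp only [Pi.zero_apply, mul_eq_zero] at hz
  rcases hz with hz | hz
  · simpa using hz
  · exact absurd (eq_zero_of_pow_eq_zero hz) (discriminant_ne_zero z)

end Fermat.Agent.X0Fld
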