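import Fermat.Agent.X0Fld.Cusp

/-!
# The stabilizer of the cusp `i∞` acts on expansions by rescaling `q_N` (package FLD)
-/

set_option autoImplicit false

open UpperHalfPlane ModularForm CongruenceSubgroup
open scoped MatrixGroups Manifold

namespace Fermat.Agent.X0Fld

/-- The subgroup `{±T^n}` of upper triangular matrices: the stabilizer of the cusp `i∞`. -/
def Ginf : Subgroup SL(2, ℤ) where
  carrier := {g | g 1 0 = 0}
  mul_mem' := by
    intro a b ha hb
    simp only [Set.mem_ofPred_eq] at ha hb ⊢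
    rw [Matrix.SpecialLinearGroup.coe_mul, Matrix.mul_apply, Fin.sum_univ_two, ha, hb]
    ring
  one_mem' := by simp
  inv_mem' := by
    intro a ha
    simp only [Set.mem_ofPred_eq] at ha ⊢
    rw [Matrix.SpecialLinearGroup.coe_inv, Matrix.adjugate_fin_two]
    simp [ha]

theorem mem_Ginf {g : SL(2, ℤ)} : g ∈ Ginf ↔ g 1 0 = 0 := Iff.rfl

/-- The translation amount of an upper triangular `g = ±T^n`: `n = g 0 0 * g 0 1`. -/
def shift (g : SL(2, ℤ)) : ℤ := g 0 0 * g 0 1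

theorem cuspRot_diag_of_mem_Ginf {g : SL(2, ℤ)} (hg : g ∈ Ginf) :
    (g 0 0 = 1 ∧ g 1 1 = 1) ∨ (g 0 0 = -1 ∧ g 1 1 = -1) := by
  have hdet := Matrix.SpecialLinearGroup.det_coe g
  rw [Matrix.det_fin_two, mem_Ginf.mp hg, mul_zero, sub_zero] at hdet
  exact Int.eq_one_or_neg_one_of_mul_eq_one' hdet

/-- For `g ∈ Ginf`, `g • z = z + shift g`. -/
theorem smul_of_mem_Ginf {g : SL(2, ℤ)} (hg : g ∈ Ginf) (z : ℍ) :
    g • z = ((shift g : ℤ) : ℝ) +ᵥ z := by
  apply UpperHalfPlane.ext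
  rw [UpperHalfPlane.coe_specialLinearGroup_apply, UpperHalfPlane.coe_vadd, mem_Ginf.mp hg, shift]
  rcases cuspRot_diag_of_mem_Ginf hg with ⟨h0, h1⟩ | ⟨h0, h1⟩
  · rw [h0, h1]; push_cast; simp; ring
  · rw [h0, h1]; push_cast
    rw [div_eq_iff (by norm_num)]; simp

theorem shift_mul {g g' : SL(2, ℤ)} (hg : g ∈ Ginf) (hg' : g' ∈ Ginf) :
    shift (g * g') = shift g + shift g' := by
  simp only [shift, Matrix.SpecialLinearGroup.coe_mul, Matrix.mul_apply, Fin.sum_univ_two,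
    mem_Ginf.mp hg']
  rcases cuspRot_diag_of_mem_Ginf hg with ⟨h0, h1⟩ | ⟨h0, h1⟩ <;>
  rcases cuspRot_diag_of_mem_Ginf hg' with ⟨h0', h1'⟩ | ⟨h0', h1'⟩ <;>
  rw [h0, h0', h1'] <;> ring

/-- The rotation character at `i∞`: `χ(g) = exp(-2πi n/N)` for `g = ±T^n`
(because `(act g h)(z) = h(z - n)` and `q_N(z - n) = exp(-2πi n/N) q_N(z)`). -/
noncomputable def chiInf (N : ℕ) (g : SL(2, ℤ)) : ℂˣ :=
  Units.mk0 (Complex.exp (-(2 * Real.pi * Complex.I * ((shift g : ℤ) : ℂ) / (N : ℂ))))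
    (Complex.exp_ne_zero _)

theorem chiInf_mul (N : ℕ) {g g' : SL(2, ℤ)} (hg : g ∈ Ginf) (hg' : g' ∈ Ginf) :
    chiInf N (g * g') = chiInf N g * chiInf N g' := by
  apply Units.ext
  simp only [chiInf, Units.val_mk0, Units.val_mul]
  rw [shift_mul hg hg', ← Complex.exp_add]
  congr 1
  push_cast
  ring


/-- The discriminant is invariant under integer translations. -/
theorem cuspRot_discriminant_vadd (n : ℤ) (z : ℍ) :
    discriminant (((n : ℤ) : ℝ) +ᵥ z) = discriminant z := by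
  have h1 : ((n : ℤ) : ℝ) ∈ (𝒮ℒ).strictPeriods := by
    have := zsmul_mem one_mem_strictPeriods_SL n
    simp
  exact SlashInvariantForm.vAdd_apply_of_mem_strictPeriods CuspForm.discriminant z h1

/-- A function on `ℍ` invariant under `z ↦ h + z` gives a periodic function on `ℂ`. -/
theorem cuspRot_periodic_comp_ofComplex {F : ℍ → ℂ} {h : ℝ}
    (hF : ∀ z : ℍ, F (h +ᵥ z) = F z) : Function.Periodic (F ∘ ofComplex) h := by
  intro w
  by_cases hw : 0 < w.im
  · have hw' : 0 < (w + h).im := by simpa using hw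
    simp only [Function.comp_apply, ofComplex_apply_of_im_pos hw', ofComplex_apply_of_im_pos hw]
    rw [← hF ⟨w, hw⟩]
    congr 1
    ext
    simp [add_comm]
  · rw [not_lt] at hw
    have hw' : (w + h).im ≤ 0 := by simpa using hw
    simp [ofComplex_apply_of_im_nonpos hw', ofComplex_apply_of_im_nonpos hw]

theorem cuspRot_qParam_vadd (N : ℕ) [NeZero N] (n : ℤ) (z : ℍ) :
    Function.Periodic.qParam (N : ℝ) (((-(n : ℝ)) +ᵥ z : ℍ) : ℂ) =
      Complex.exp (-(2 * Real.pi * Complex.I * (n : ℂ) / (N : ℂ))) *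
        Function.Periodic.qParam (N : ℝ) (z : ℂ) := by
  rw [Function.Periodic.qParam, Function.Periodic.qParam, ← Complex.exp_add]
  congr 1
  rw [UpperHalfPlane.coe_vadd]
  push_cast
  ring

theorem cuspRot_mdiff_vadd {F : ℍ → ℂ} (hF : MDiff F) (n : ℤ) :
    MDiff (fun z : ℍ => F ((-(n : ℝ)) +ᵥ z)) := by
  have h1 : (fun z : ℍ => F ((-(n : ℝ)) +ᵥ z)) = F ∘ (fun z : ℍ => ModularGroup.T ^ (-n) • z) := by
    funext z
    rw [Function.comp_apply, UpperHalfPlane.modular_T_zpow_smul, Int.cast_neg]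
  rw [h1]
  exact hF.comp (mdiff_smul_SL _)

theorem cuspRot_bdd_vadd {F : ℍ → ℂ} (hF : IsBoundedAtImInfty F) (x : ℝ) :
    IsBoundedAtImInfty (fun z : ℍ => F (x +ᵥ z)) := by
  have ht : Filter.Tendsto (fun z : ℍ => x +ᵥ z) atImInfty atImInfty := by
    rw [atImInfty, Filter.tendsto_comap_iff]
    have : (im ∘ fun z : ℍ => x +ᵥ z) = im := by
      funext z
      simp
    rw [this]
    exact Filter.tendsto_comap
  exact hF.comp_tendsto ht

/-- Translating by an integer rescales the `q_N`-expansion by a root of unity. -/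
theorem cuspRot_qExpansion_vadd (N : ℕ) [NeZero N] {F : ℍ → ℂ}
    (hper : ∀ z : ℍ, F ((N : ℝ) +ᵥ z) = F z) (hhol : MDiff F) (hbdd : IsBoundedAtImInfty F)
    (n : ℤ) :
    qExpansion (N : ℝ) (fun z : ℍ => F ((-(n : ℝ)) +ᵥ z)) =
      PowerSeries.rescale (Complex.exp (-(2 * Real.pi * Complex.I * (n : ℂ) / (N : ℂ))))
        (qExpansion (N : ℝ) F) := by
  have hN : (0 : ℝ) < N := Nat.cast_pos.mpr (NeZero.pos N)
  have hper' : ∀ z : ℍ, (fun z : ℍ => F ((-(n : ℝ)) +ᵥ z)) ((N : ℝ) +ᵥ z) =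
      (fun z : ℍ => F ((-(n : ℝ)) +ᵥ z)) z := by
    intro z
    show F ((-(n : ℝ)) +ᵥ ((N : ℝ) +ᵥ z)) = F ((-(n : ℝ)) +ᵥ z)
    rw [vadd_comm, hper]
  have han := analyticAt_cuspFunction_zero hN (cuspRot_periodic_comp_ofComplex hper')
    (cuspRot_mdiff_vadd hhol n) (cuspRot_bdd_vadd hbdd _)
  set a : ℂ := Complex.exp (-(2 * Real.pi * Complex.I * (n : ℂ) / (N : ℂ))) with ha
  have key : ∀ τ : ℍ, HasSum (fun m : ℕ => (a ^ m * (qExpansion (N : ℝ) F).coeff m) •
      Function.Periodic.qParam (N : ℝ) (τ : ℂ) ^ m) ((fun z : ℍ => F ((-(n : ℝ)) +ᵥ z)) τ) := by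
    intro τ
    have h1 := hasSum_qExpansion hN (cuspRot_periodic_comp_ofComplex hper) hhol hbdd
      ((-(n : ℝ)) +ᵥ τ)
    rw [cuspRot_qParam_vadd, ← ha] at h1
    convert h1 using 2 with k
    simp only [smul_eq_mul]
    ring
  have hcont : Continuous (fun z : ℍ => F ((-(n : ℝ)) +ᵥ z)) :=
    (cuspRot_mdiff_vadd hhol n).continuous
  have key2 := fun m => UpperHalfPlane.qExpansion_coeff_unique
    (c := fun m => a ^ m * (qExpansion (N : ℝ) F).coeff m)
    (ContinuousMap.mk (fun z : ℍ => F ((-(n : ℝ)) +ᵥ z)) hcont) hN han key m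
  apply PowerSeries.ext
  intro m
  rw [PowerSeries.coeff_rescale]
  exact (key2 m).symm


theorem cuspRot_shift_inv {g : SL(2, ℤ)} (hg : g ∈ Ginf) : shift g⁻¹ = -shift g := by
  have h := shift_mul hg (Ginf.inv_mem hg)
  rw [mul_inv_cancel] at h
  have h1 : shift (1 : SL(2, ℤ)) = 0 := by simp [shift]
  rw [h1] at h
  linarith

/-- For `g ∈ Ginf`, `act g F z = F (z - shift g)`. -/
theorem cuspRot_act_apply {g : SL(2, ℤ)} (hg : g ∈ Ginf) (F : ℍ → ℂ) (z : ℍ) :
    act g F z = F ((-((shift g : ℤ) : ℝ)) +ᵥ z) := by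
  rw [act_apply, smul_of_mem_Ginf (Ginf.inv_mem hg), cuspRot_shift_inv hg, Int.cast_neg]

theorem cuspRot_coe_chiInf (N : ℕ) (g : SL(2, ℤ)) :
    ((chiInf N g : ℂˣ) : ℂ) =
      Complex.exp (-(2 * Real.pi * Complex.I * ((shift g : ℤ) : ℂ) / (N : ℂ))) := rfl

/-- The `q_N`-expansion of `Δ` is fixed by the rotation character. -/
theorem cuspRot_rescaleL_deltaL (N : ℕ) [NeZero N] (g : SL(2, ℤ)) :
    rescaleL (chiInf N g) (deltaL N) = deltaL N := by
  have hfun : (fun z : ℍ => discriminant ((-((shift g : ℤ) : ℝ)) +ᵥ z)) = discriminant := by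
    funext z
    have := cuspRot_discriminant_vadd (-shift g) z
    rwa [Int.cast_neg] at this
  have hper : ∀ z : ℍ, discriminant ((N : ℝ) +ᵥ z) = discriminant z := by
    intro z
    have := cuspRot_discriminant_vadd (N : ℤ) z
    rwa [Int.cast_natCast] at this
  rw [deltaL, rescaleL_ofPowerSeries, cuspRot_coe_chiInf,
    ← cuspRot_qExpansion_vadd N hper mdiff_discriminant
      discriminant_isZeroAtImInfty.boundedAtFilter (shift g), hfun]

/-- `Ginf` acts on expansions at `i∞` by rescaling `q_N`. -/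
theorem TinfB_actB (N : ℕ) [NeZero N] {g : SL(2, ℤ)} (hg : g ∈ Ginf) (h : B N) :
    TinfB N (actB N g h) = rescaleL (chiInf N g) (TinfB N h) := by
  obtain ⟨m, hm⟩ := h.2.bdd
  have hb : IsBoundedAtImInfty (fun z : ℍ => (h : ℍ → ℂ) z * discriminant z ^ m) := by
    have := hm 1
    simp only [one_smul] at this
    exact this
  have hper : ∀ z : ℍ, (fun z : ℍ => (h : ℍ → ℂ) z * discriminant z ^ m) ((N : ℝ) +ᵥ z) =
      (fun z : ℍ => (h : ℍ → ℂ) z * discriminant z ^ m) z := by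
    intro z
    have h1 := cuspRot_discriminant_vadd (N : ℤ) z
    rw [Int.cast_natCast] at h1
    show (h : ℍ → ℂ) ((N : ℝ) +ᵥ z) * discriminant ((N : ℝ) +ᵥ z) ^ m = _
    rw [periodic_of_mem_B, h1]
  have hhol : MDiff (fun z : ℍ => (h : ℍ → ℂ) z * discriminant z ^ m) :=
    h.2.mdiff.mul (mdiff_discriminant.pow m)
  have hact : (fun z : ℍ => ((actB N g h : B N) : ℍ → ℂ) z * discriminant z ^ m) =
      fun z : ℍ => (fun z : ℍ => (h : ℍ → ℂ) z * discriminant z ^ m)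
        ((-((shift g : ℤ) : ℝ)) +ᵥ z) := by
    funext z
    have h1 := cuspRot_discriminant_vadd (-shift g) z
    rw [Int.cast_neg] at h1
    show ((actB N g h : B N) : ℍ → ℂ) z * discriminant z ^ m =
      (h : ℍ → ℂ) ((-((shift g : ℤ) : ℝ)) +ᵥ z) * discriminant ((-((shift g : ℤ) : ℝ)) +ᵥ z) ^ m
    rw [coe_actB, cuspRot_act_apply hg, h1]
  have hb' : IsBoundedAtImInfty
      (fun z : ℍ => ((actB N g h : B N) : ℍ → ℂ) z * discriminant z ^ m) := by
    rw [hact]
    exact cuspRot_bdd_vadd hb _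
  have h1 := TinfB_spec N (actB N g h) m hb'
  have h2 := TinfB_spec N h m hb
  rw [hact, cuspRot_qExpansion_vadd N hper hhol hb (shift g), ← cuspRot_coe_chiInf,
    ← rescaleL_ofPowerSeries, ← h2, map_mul, map_pow, cuspRot_rescaleL_deltaL] at h1
  exact mul_right_cancel₀ (pow_ne_zero m (deltaL_ne_zero N)) h1

theorem cuspRot_T_zpow_mem_Ginf (n : ℤ) : ModularGroup.T ^ n ∈ Ginf := by
  rw [mem_Ginf]
  show (ModularGroup.T ^ n).1 1 0 = 0
  rw [ModularGroup.coe_T_zpow]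
  rfl

theorem cuspRot_shift_T_zpow (n : ℤ) : shift (ModularGroup.T ^ n) = n := by
  show (ModularGroup.T ^ n).1 0 0 * (ModularGroup.T ^ n).1 0 1 = n
  rw [ModularGroup.coe_T_zpow]
  simp

/-- The image of `Ginf` under `chiInf N` is the group of `N`-th roots of unity. -/
theorem cuspRot_image_chiInf (N : ℕ) [NeZero N] :
    (chiInf N) '' (Ginf : Set SL(2, ℤ)) = ((rootsOfUnity N ℂ : Subgroup ℂˣ) : Set ℂˣ) := by
  have hN : (N : ℂ) ≠ 0 := Nat.cast_ne_zero.mpr (NeZero.ne N)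
  ext x
  constructor
  · rintro ⟨g, -, rfl⟩
    rw [SetLike.mem_coe, mem_rootsOfUnity]
    apply Units.ext
    rw [Units.val_pow_eq_pow_val, cuspRot_coe_chiInf, ← Complex.exp_nat_mul, Units.val_one]
    have : (N : ℂ) * -(2 * Real.pi * Complex.I * ((shift g : ℤ) : ℂ) / (N : ℂ)) =
        ((-shift g : ℤ) : ℂ) * (2 * Real.pi * Complex.I) := by
      push_cast
      field_simp
    rw [this]
    exact Complex.exp_int_mul_two_pi_mul_I _
  · intro hx
    rw [SetLike.mem_coe, Complex.mem_rootsOfUnity] at hx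
    obtain ⟨i, -, hi⟩ := hx
    refine ⟨ModularGroup.T ^ (-(i : ℤ)), cuspRot_T_zpow_mem_Ginf _, ?_⟩
    apply Units.ext
    rw [cuspRot_coe_chiInf, cuspRot_shift_T_zpow, ← hi]
    congr 1
    push_cast
    ring

/-- the image of `Ginf` under `chiInf N` has exactly `N` elements (the `N`-th roots of unity) -/
theorem card_chiInf (N : ℕ) [NeZero N] :
    Nat.card ↥((chiInf N) '' (Ginf : Set SL(2, ℤ))) = N := by
  rw [cuspRot_image_chiInf]
  exact Complex.card_rootsOfUnity N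

end Fermat.Agent.X0Fld
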