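import Mathlib

/-!
# The ring of weakly holomorphic modular functions of level `Γ(N)` (package FLD, core definitions)

* `act γ h = h ∘ (γ⁻¹ • ·)`: the action of `SL(2,ℤ)` on functions on the upper half plane;
* `IsWH N h`: `h` is holomorphic on `ℍ`, `Γ(N)`-invariant and meromorphic at all cusps
  (`h ∘ γ * Δ ^ m` is bounded at `i∞` for some `m` and all `γ ∈ SL(2,ℤ)`);
* `B N`: the `ℂ`-algebra of such functions; it is a domain.
-/

set_option autoImplicit false

open UpperHalfPlane ModularForm CongruenceSubgroup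
open scoped MatrixGroups Manifold

namespace Fermat.Agent.X0Fld

/-- The action of `SL(2,ℤ)` on functions: `(act γ h)(z) = h(γ⁻¹ z)`. -/
noncomputable def act (γ : SL(2, ℤ)) (h : ℍ → ℂ) : ℍ → ℂ := fun z => h (γ⁻¹ • z)

@[simp] theorem act_apply (γ : SL(2, ℤ)) (h : ℍ → ℂ) (z : ℍ) : act γ h z = h (γ⁻¹ • z) := rfl

theorem act_one (h : ℍ → ℂ) : act 1 h = h := by
  funext z
  rw [act_apply, inv_one, one_smul]

theorem act_mul (γ δ : SL(2, ℤ)) (h : ℍ → ℂ) : act (γ * δ) h = act γ (act δ h) := by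
  funext z
  rw [act_apply, act_apply, act_apply, mul_inv_rev, mul_smul]

/-- Weakly holomorphic modular functions of level `Γ(N)`. -/
structure IsWH (N : ℕ) (h : ℍ → ℂ) : Prop where
  mdiff : MDiff h
  inv : ∀ γ ∈ Gamma N, ∀ z : ℍ, h (γ • z) = h z
  bdd : ∃ m : ℕ, ∀ γ : SL(2, ℤ),
    IsBoundedAtImInfty (fun z : ℍ => h (γ • z) * discriminant z ^ m)

theorem mdiff_smul_SL (γ : SL(2, ℤ)) : MDiff (fun z : ℍ => γ • z) := by
  have h : (fun z : ℍ => γ • z) = fun z : ℍ =>
      (Matrix.SpecialLinearGroup.toGL ((Matrix.SpecialLinearGroup.map (Int.castRingHom ℝ)) γ)) • z := by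
    funext z; exact ModularGroup.sl_moeb γ z
  rw [h]
  apply mdifferentiable_smul
  simp

theorem mdiff_discriminant : MDiff discriminant := CuspForm.discriminant.holo'

theorem bdd_discriminant_pow (m : ℕ) : IsBoundedAtImInfty (fun z : ℍ => discriminant z ^ m) := by
  have h1 : IsBoundedAtImInfty discriminant :=
    discriminant_isZeroAtImInfty.boundedAtFilter
  induction m with
  | zero =>
    have := Filter.const_boundedAtFilter atImInfty (1 : ℂ)
    refine this.congr' (Filter.Eventually.of_forall fun z => ?_) (Filter.EventuallyEq.refl _ _)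
    simp
  | succ n ih =>
    have := ih.mul h1
    refine this.congr' (Filter.Eventually.of_forall fun z => ?_) (Filter.EventuallyEq.refl _ _)
    simp [pow_succ]

theorem IsWH.const (N : ℕ) (c : ℂ) : IsWH N (fun _ => c) where
  mdiff := mdifferentiable_const
  inv := fun _ _ _ => rfl
  bdd := ⟨0, fun _ => by
    have := Filter.const_boundedAtFilter atImInfty c
    refine this.congr' (Filter.Eventually.of_forall fun z => ?_) (Filter.EventuallyEq.refl _ _)
    simp⟩

theorem IsWH.bdd_of_le {h : ℍ → ℂ} {m m' : ℕ} (hmm : m ≤ m')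
    (hb : ∀ γ : SL(2, ℤ), IsBoundedAtImInfty (fun z : ℍ => h (γ • z) * discriminant z ^ m))
    (γ : SL(2, ℤ)) : IsBoundedAtImInfty (fun z : ℍ => h (γ • z) * discriminant z ^ m') := by
  obtain ⟨k, rfl⟩ := Nat.exists_eq_add_of_le hmm
  have := (hb γ).mul (bdd_discriminant_pow k)
  refine this.congr' (Filter.Eventually.of_forall fun z => ?_) (Filter.EventuallyEq.refl _ _)
  simp [pow_add, mul_assoc]

theorem IsWH.add {N : ℕ} {h₁ h₂ : ℍ → ℂ} (H₁ : IsWH N h₁) (H₂ : IsWH N h₂) : IsWH N (h₁ + h₂) where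
  mdiff := H₁.mdiff.add H₂.mdiff
  inv := fun γ hγ z => by rw [Pi.add_apply, Pi.add_apply, H₁.inv γ hγ z, H₂.inv γ hγ z]
  bdd := by
    obtain ⟨m₁, hm₁⟩ := H₁.bdd
    obtain ⟨m₂, hm₂⟩ := H₂.bdd
    refine ⟨max m₁ m₂, fun γ => ?_⟩
    have h1 := IsWH.bdd_of_le (le_max_left m₁ m₂) hm₁ γ
    have h2 := IsWH.bdd_of_le (le_max_right m₁ m₂) hm₂ γ
    refine (h1.add h2).congr' (Filter.Eventually.of_forall fun z => ?_) (Filter.EventuallyEq.refl _ _)
    simp [add_mul]

theorem IsWH.mul {N : ℕ} {h₁ h₂ : ℍ → ℂ} (H₁ : IsWH N h₁) (H₂ : IsWH N h₂) : IsWH N (h₁ * h₂) where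
  mdiff := H₁.mdiff.mul H₂.mdiff
  inv := fun γ hγ z => by rw [Pi.mul_apply, Pi.mul_apply, H₁.inv γ hγ z, H₂.inv γ hγ z]
  bdd := by
    obtain ⟨m₁, hm₁⟩ := H₁.bdd
    obtain ⟨m₂, hm₂⟩ := H₂.bdd
    refine ⟨m₁ + m₂, fun γ => ?_⟩
    refine ((hm₁ γ).mul (hm₂ γ)).congr' (Filter.Eventually.of_forall fun z => ?_)
      (Filter.EventuallyEq.refl _ _)
    simp [pow_add]; ring

theorem IsWH.act {N : ℕ} {h : ℍ → ℂ} (H : IsWH N h) (γ : SL(2, ℤ)) : IsWH N (act γ h) where
  mdiff := H.mdiff.comp (mdiff_smul_SL γ⁻¹)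
  inv := fun δ hδ z => by
    have hn : γ⁻¹ * δ * γ ∈ Gamma N := by
      have := (Gamma_normal N).conj_mem δ hδ γ⁻¹
      simpa using this
    have := H.inv _ hn (γ⁻¹ • z)
    simp only [act_apply]
    rw [← this]
    congr 1
    simp [mul_smul]
  bdd := by
    obtain ⟨m, hm⟩ := H.bdd
    refine ⟨m, fun δ => ?_⟩
    refine (hm (γ⁻¹ * δ)).congr' (Filter.Eventually.of_forall fun z => ?_)
      (Filter.EventuallyEq.refl _ _)
    simp [mul_smul]

/-- The `ℂ`-algebra of weakly holomorphic modular functions of level `Γ(N)`. -/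
def B (N : ℕ) : Subalgebra ℂ (ℍ → ℂ) where
  carrier := {h | IsWH N h}
  mul_mem' := fun ha hb => IsWH.mul ha hb
  add_mem' := fun ha hb => IsWH.add ha hb
  algebraMap_mem' := fun c => IsWH.const N c

theorem mem_B {N : ℕ} {h : ℍ → ℂ} : h ∈ B N ↔ IsWH N h := Iff.rfl

instance instIsDomainB (N : ℕ) : IsDomain (B N) := by
  have : NoZeroDivisors (B N) := by
    refine ⟨fun {a b} hab => ?_⟩
    have h0 : (a : ℍ → ℂ) * (b : ℍ → ℂ) = 0 := by
      have := congrArg (Subtype.val) hab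
      simpa using this
    rcases (UpperHalfPlane.mul_eq_zero_iff a.2.mdiff b.2.mdiff).mp h0 with h | h
    · exact Or.inl (Subtype.ext h)
    · exact Or.inr (Subtype.ext h)
  exact NoZeroDivisors.to_isDomain _

/-- The field of modular functions of level `Γ(N)`. -/
abbrev Fld (N : ℕ) : Type := FractionRing (B N)

end Fermat.Agent.X0Fld
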