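import Fermat.Agent.X0Fld.Taylor

/-!
# Elements of `SL(2,ℤ)` fixing a point act as rotations in the disc coordinate (package FLD)
-/

set_option autoImplicit false

open UpperHalfPlane
open scoped MatrixGroups Manifold ComplexConjugate

namespace Fermat.Agent.X0Fld

/-- The rotation factor of `g` at a fixed point `z₀`: `conj (c z₀ + d) / (c z₀ + d)`. -/
noncomputable def rot (g : SL(2, ℤ)) (z₀ : ℍ) : ℂ :=
  (((g 1 0 : ℤ) : ℂ) * conj (z₀ : ℂ) + ((g 1 1 : ℤ) : ℂ)) /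
    (((g 1 0 : ℤ) : ℂ) * (z₀ : ℂ) + ((g 1 1 : ℤ) : ℂ))

theorem rot_det_eq (g : SL(2, ℤ)) : g 0 0 * g 1 1 - g 0 1 * g 1 0 = 1 := by
  have h := g.det_coe
  rw [Matrix.det_fin_two] at h
  exact h

theorem rot_den_ne_zero (g : SL(2, ℤ)) (z₀ : ℍ) :
    ((g 1 0 : ℤ) : ℂ) * (z₀ : ℂ) + ((g 1 1 : ℤ) : ℂ) ≠ 0 := by
  intro h0
  have him := congrArg Complex.im h0
  have hre := congrArg Complex.re h0
  simp at him hre
  have hc : g 1 0 = 0 := by
    rcases him with h | h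
    · exact h
    · exact absurd h z₀.im_pos.ne'
  rw [hc] at hre
  simp at hre
  have hd : g 1 1 = 0 := by exact_mod_cast hre
  have := rot_det_eq g
  rw [hc, hd] at this
  simp at this

theorem rot_num_eq_conj (g : SL(2, ℤ)) (z₀ : ℍ) :
    ((g 1 0 : ℤ) : ℂ) * conj (z₀ : ℂ) + ((g 1 1 : ℤ) : ℂ)
      = conj (((g 1 0 : ℤ) : ℂ) * (z₀ : ℂ) + ((g 1 1 : ℤ) : ℂ)) := by
  simp

theorem rot_num_ne_zero (g : SL(2, ℤ)) (z₀ : ℍ) :
    ((g 1 0 : ℤ) : ℂ) * conj (z₀ : ℂ) + ((g 1 1 : ℤ) : ℂ) ≠ 0 := by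
  rw [rot_num_eq_conj]
  exact (map_ne_zero _).mpr (rot_den_ne_zero g z₀)

theorem rot_ne_zero (g : SL(2, ℤ)) (z₀ : ℍ) : rot g z₀ ≠ 0 :=
  div_ne_zero (rot_num_ne_zero g z₀) (rot_den_ne_zero g z₀)

theorem norm_rot (g : SL(2, ℤ)) (z₀ : ℍ) : ‖rot g z₀‖ = 1 := by
  rw [rot, rot_num_eq_conj, norm_div, Complex.norm_conj]
  exact div_self (norm_ne_zero_iff.mpr (rot_den_ne_zero g z₀))

/-- coordinates of the Möbius action of `SL(2,ℤ)` with integer casts. -/
theorem rot_coe_smul (g : SL(2, ℤ)) (z : ℍ) :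
    ((g • z : ℍ) : ℂ) = (((g 0 0 : ℤ) : ℂ) * (z : ℂ) + ((g 0 1 : ℤ) : ℂ)) /
      (((g 1 0 : ℤ) : ℂ) * (z : ℂ) + ((g 1 1 : ℤ) : ℂ)) := by
  rw [UpperHalfPlane.coe_specialLinearGroup_apply]
  simp

/-- The fixed point equation. -/
theorem rot_fixed_eq (g : SL(2, ℤ)) (z₀ : ℍ) (hg : g • z₀ = z₀) :
    ((g 0 0 : ℤ) : ℂ) * (z₀ : ℂ) + ((g 0 1 : ℤ) : ℂ)
      = (z₀ : ℂ) * (((g 1 0 : ℤ) : ℂ) * (z₀ : ℂ) + ((g 1 1 : ℤ) : ℂ)) := by
  have h := rot_coe_smul g z₀
  rw [hg, eq_div_iff (rot_den_ne_zero g z₀)] at h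
  exact h.symm

theorem rot_fixed_eq_conj (g : SL(2, ℤ)) (z₀ : ℍ) (hg : g • z₀ = z₀) :
    ((g 0 0 : ℤ) : ℂ) * conj (z₀ : ℂ) + ((g 0 1 : ℤ) : ℂ)
      = conj (z₀ : ℂ) * (((g 1 0 : ℤ) : ℂ) * conj (z₀ : ℂ) + ((g 1 1 : ℤ) : ℂ)) := by
  have h := congrArg conj (rot_fixed_eq g z₀ hg)
  simpa using h

theorem rot_mul (g g' : SL(2, ℤ)) (z₀ : ℍ) (hg' : g' • z₀ = z₀) :
    rot (g * g') z₀ = rot g z₀ * rot g' z₀ := by
  have h1 := rot_fixed_eq g' z₀ hg'
  have h2 := rot_fixed_eq_conj g' z₀ hg'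
  have e10 : (g * g') 1 0 = g 1 0 * g' 0 0 + g 1 1 * g' 1 0 := by
    simp [Matrix.SpecialLinearGroup.coe_mul, Matrix.mul_apply, Fin.sum_univ_two]
  have e11 : (g * g') 1 1 = g 1 0 * g' 0 1 + g 1 1 * g' 1 1 := by
    simp [Matrix.SpecialLinearGroup.coe_mul, Matrix.mul_apply, Fin.sum_univ_two]
  have hd := rot_den_ne_zero g z₀
  have hd' := rot_den_ne_zero g' z₀
  have hdd : ((((g * g') 1 0 : ℤ) : ℂ) * (z₀ : ℂ) + (((g * g') 1 1 : ℤ) : ℂ))
      = (((g 1 0 : ℤ) : ℂ) * (z₀ : ℂ) + ((g 1 1 : ℤ) : ℂ)) *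
        (((g' 1 0 : ℤ) : ℂ) * (z₀ : ℂ) + ((g' 1 1 : ℤ) : ℂ)) := by
    rw [e10, e11]; push_cast
    linear_combination ((g 1 0 : ℤ) : ℂ) * h1
  have hnn : ((((g * g') 1 0 : ℤ) : ℂ) * conj (z₀ : ℂ) + (((g * g') 1 1 : ℤ) : ℂ))
      = (((g 1 0 : ℤ) : ℂ) * conj (z₀ : ℂ) + ((g 1 1 : ℤ) : ℂ)) *
        (((g' 1 0 : ℤ) : ℂ) * conj (z₀ : ℂ) + ((g' 1 1 : ℤ) : ℂ)) := by
    rw [e10, e11]; push_cast
    linear_combination ((g 1 0 : ℤ) : ℂ) * h2
  rw [rot, rot, rot, hdd, hnn, mul_div_mul_comm]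

theorem rot_eq_one_iff (g : SL(2, ℤ)) (z₀ : ℍ) (hg : g • z₀ = z₀) :
    rot g z₀ = 1 ↔ g = 1 ∨ g = -1 := by
  constructor
  · intro h
    rw [rot, div_eq_one_iff_eq (rot_den_ne_zero g z₀)] at h
    have hc : g 1 0 = 0 := by
      have him := congrArg Complex.im h
      simp at him
      have : (g 1 0 : ℝ) * z₀.im = 0 := by linarith
      rcases mul_eq_zero.mp this with h | h
      · exact_mod_cast h
      · exact absurd h z₀.im_pos.ne'
    have hdet := rot_det_eq g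
    rw [hc] at hdet
    simp at hdet
    have hfix := rot_fixed_eq g z₀ hg
    rw [hc] at hfix
    simp at hfix
    have him := congrArg Complex.im hfix
    have hre := congrArg Complex.re hfix
    simp at him hre
    have had : g 0 0 = g 1 1 := by
      have : ((g 0 0 : ℝ) - (g 1 1 : ℝ)) * z₀.im = 0 := by linarith
      rcases mul_eq_zero.mp this with h | h
      · have : (g 0 0 : ℝ) = (g 1 1 : ℝ) := by linarith
        exact_mod_cast this
      · exact absurd h z₀.im_pos.ne'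
    have hb : g 0 1 = 0 := by
      have : (g 0 1 : ℝ) = 0 := by
        have e : (g 0 0 : ℝ) = (g 1 1 : ℝ) := by exact_mod_cast had
        rw [e] at hre
        linarith
      exact_mod_cast this
    rw [had] at hdet
    rcases Int.eq_one_or_neg_one_of_mul_eq_one hdet with h1 | h1
    · left
      ext i j
      fin_cases i <;> fin_cases j <;> simp [hc, hb, had, h1]
    · right
      ext i j
      fin_cases i <;> fin_cases j <;> simp [hc, hb, had, h1]
  · rintro (rfl | rfl)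
    · simp [rot]
    · have h := rot_den_ne_zero (-1) z₀
      have hn := rot_num_ne_zero (-1) z₀
      simp at h hn
      simp [rot]


/-- The Möbius action of a stabiliser element in the disc coordinate, on the level of points. -/
theorem rot_smul_ofComplex_discMap (g : SL(2, ℤ)) (z₀ : ℍ) (hg : g • z₀ = z₀) {w : ℂ}
    (hw : ‖w‖ < 1) :
    g • ofComplex (discMap z₀ w) = ofComplex (discMap z₀ (rot g z₀ * w)) := by
  have hw' : ‖rot g z₀ * w‖ < 1 := by rw [norm_mul, norm_rot, one_mul]; exact hw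
  have him := im_discMap_pos z₀ hw
  have him' := im_discMap_pos z₀ hw'
  apply UpperHalfPlane.ext
  rw [rot_coe_smul, ofComplex_apply_of_im_pos him, ofComplex_apply_of_im_pos him']
  show _ = discMap z₀ (rot g z₀ * w)
  have hden := rot_den_ne_zero g ⟨discMap z₀ w, him⟩
  have h1 := rot_fixed_eq g z₀ hg
  have h2 := rot_fixed_eq_conj g z₀ hg
  have hu := rot_den_ne_zero g z₀
  have hw1 : (1 : ℂ) - w ≠ 0 := by
    intro h0
    have : w = 1 := by linear_combination -h0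
    rw [this] at hw
    simp at hw
  have hrw1 : (1 : ℂ) - rot g z₀ * w ≠ 0 := by
    intro h0
    have : rot g z₀ * w = 1 := by linear_combination -h0
    rw [this] at hw'
    simp at hw'
  change ((g 1 0 : ℤ) : ℂ) * discMap z₀ w + ((g 1 1 : ℤ) : ℂ) ≠ 0 at hden
  change (((g 0 0 : ℤ) : ℂ) * discMap z₀ w + ((g 0 1 : ℤ) : ℂ)) /
    (((g 1 0 : ℤ) : ℂ) * discMap z₀ w + ((g 1 1 : ℤ) : ℂ)) = discMap z₀ (rot g z₀ * w)
  rw [div_eq_iff hden]
  simp only [discMap, rot] at hrw1 ⊢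
  generalize ((g 0 0 : ℤ) : ℂ) = A at *
  generalize ((g 0 1 : ℤ) : ℂ) = B at *
  generalize ((g 1 0 : ℤ) : ℂ) = C at *
  generalize ((g 1 1 : ℤ) : ℂ) = D at *
  generalize (z₀ : ℂ) = Z at *
  generalize conj Z = Zb at *
  have hrw2 : C * Z + D - (C * Zb + D) * w ≠ 0 := by
    intro h0
    apply hrw1
    have h3 : (C * Zb + D) * w = C * Z + D := by linear_combination -h0
    rw [div_mul_eq_mul_div, h3, div_self hu, sub_self]
  have e1 : A * ((Z - Zb * w) / (1 - w)) + B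
      = (Z * (C * Z + D) - Zb * (C * Zb + D) * w) / (1 - w) := by
    field_simp
    linear_combination h1 - w * h2
  have e2 : C * ((Z - Zb * w) / (1 - w)) + D = (C * Z + D - (C * Zb + D) * w) / (1 - w) := by
    field_simp
    ring
  have e3 : ∀ U V : ℂ, U ≠ 0 → U - V * w ≠ 0 → 1 - V / U * w ≠ 0 →
      (Z - Zb * (V / U * w)) / (1 - V / U * w) = (Z * U - Zb * V * w) / (U - V * w) := by
    intro U V hU hUV hUV'
    rw [div_eq_div_iff hUV' hUV]
    field_simp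
  rw [e1, e2, e3 _ _ hu hrw2 hrw1]
  generalize Z * (C * Z + D) - Zb * (C * Zb + D) * w = P at *
  generalize C * Z + D - (C * Zb + D) * w = Q at *
  field_simp

/-- In the disc coordinate at a fixed point `z₀` of `g`, `g` is the rotation by `rot g z₀`. -/
theorem loc_smul (g : SL(2, ℤ)) (z₀ : ℍ) (hg : g • z₀ = z₀) (h : ℍ → ℂ) {w : ℂ} (hw : ‖w‖ < 1) :
    loc z₀ (fun z => h (g • z)) w = loc z₀ h (rot g z₀ * w) := by
  show h (g • ofComplex (discMap z₀ w)) = h (ofComplex (discMap z₀ (rot g z₀ * w)))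
  rw [rot_smul_ofComplex_discMap g z₀ hg hw]

/-- Local chain rule for iterated derivatives under `w ↦ c * w`. -/
theorem rot_iteratedDeriv_comp_const_mul (f : ℂ → ℂ) (c : ℂ) (n : ℕ) (x : ℂ)
    (hf : AnalyticAt ℂ f (c * x)) :
    iteratedDeriv n (fun w => f (c * w)) x = c ^ n * iteratedDeriv n f (c * x) := by
  induction n generalizing x with
  | zero => simp
  | succ n ih =>
    have hopen : IsOpen {y : ℂ | AnalyticAt ℂ f (c * y)} :=
      (isOpen_analyticAt ℂ f).preimage (continuous_const.mul continuous_id)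
    have hev : iteratedDeriv n (fun w => f (c * w)) =ᶠ[nhds x]
        fun y => c ^ n * iteratedDeriv n f (c * y) := by
      filter_upwards [hopen.mem_nhds hf] with y hy
      exact ih y hy
    rw [iteratedDeriv_succ, hev.deriv_eq, iteratedDeriv_succ]
    have hd : DifferentiableAt ℂ (iteratedDeriv n f) (c * x) := by
      rw [iteratedDeriv_eq_iterate]
      exact (hf.iterated_deriv n).differentiableAt
    have h2 : deriv (fun y => c ^ n * iteratedDeriv n f (c * y)) x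
        = c ^ n * deriv (fun y => iteratedDeriv n f (c * y)) x := by
      apply deriv_const_mul
      exact hd.comp x ((differentiableAt_id).const_mul c)
    rw [h2, deriv_comp_mul_left c (iteratedDeriv n f) x, smul_eq_mul]
    ring

theorem tay_smul (g : SL(2, ℤ)) (z₀ : ℍ) (hg : g • z₀ = z₀) {h : ℍ → ℂ} (H : MDiff h) :
    tay z₀ (fun z => h (g • z)) = PowerSeries.rescale (rot g z₀) (tay z₀ h) := by
  ext n
  rw [PowerSeries.coeff_rescale, tay, tay, PowerSeries.coeff_mk, PowerSeries.coeff_mk]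
  have hev : loc z₀ (fun z => h (g • z)) =ᶠ[nhds 0] fun w => loc z₀ h (rot g z₀ * w) := by
    filter_upwards [Metric.ball_mem_nhds (0 : ℂ) one_pos] with w hw
    exact loc_smul g z₀ hg h (by simpa using hw)
  rw [hev.iteratedDeriv_eq n, rot_iteratedDeriv_comp_const_mul (loc z₀ h) (rot g z₀) n 0
    (by rw [mul_zero]; exact analyticAt_loc z₀ H), mul_zero]
  ring

set_option linter.unusedVariables false in
/-- The order of vanishing is invariant under `SL(2,ℤ)`. -/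
theorem analyticOrderAt_comp_smul (g : SL(2, ℤ)) (z : ℍ) {h : ℍ → ℂ} (H : MDiff h) :
    analyticOrderAt ((fun z => h (g • z)) ∘ ofComplex) (z : ℂ)
      = analyticOrderAt (h ∘ ofComplex) ((g • z : ℍ) : ℂ) := by
  have hdet : 0 < ((g : GL (Fin 2) ℝ)).val.det := by
    have h1 : ((g : GL (Fin 2) ℝ)).val.det = 1 :=
      (Matrix.SpecialLinearGroup.map (Int.castRingHom ℝ) g).det_coe
    rw [h1]; exact one_pos
  have hfun : ((fun z => h (g • z)) ∘ ofComplex)
      = (h ∘ ofComplex) ∘ (fun w : ℂ => (((g : GL (Fin 2) ℝ) • ofComplex w : ℍ) : ℂ)) := by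
    funext w
    show h (g • ofComplex w) = h (ofComplex (((g : GL (Fin 2) ℝ) • ofComplex w : ℍ) : ℂ))
    rw [ofComplex_apply, ModularGroup.sl_moeb]
  rw [hfun, analyticOrderAt_comp_of_deriv_ne_zero (z.analyticAt_smul hdet)
    (z.deriv_smul_ne_zero hdet), ofComplex_apply, ModularGroup.sl_moeb]

end Fermat.Agent.X0Fld
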