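import Fermat.Agent.X0Fld.Fixed
import Fermat.Agent.X0Fld.Rot
import Fermat.Agent.X0Fld.Rescale

/-!
# Expansions at the finite points (package FLD)

`zPt c` is the chosen point of `ℍ` with `j = c` (`ρ` for `c = 0`, `I` for `c = 1728`),
`Tfin N c` the Taylor expansion at `zPt c` in the disc coordinate, `chiFin c` the rotation
character of the stabilizer of `zPt c`, `dFin c` the local degree of `j`.
-/

set_option autoImplicit false

open UpperHalfPlane ModularForm CongruenceSubgroup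
open scoped MatrixGroups Manifold

namespace Fermat.Agent.X0Fld

open Classical in
/-- The chosen point above `c`. -/
noncomputable def zPt (c : ℂ) : ℍ :=
  if c = 0 then UpperHalfPlane.ρ else if c = 1728 then UpperHalfPlane.I
  else Classical.choose (X0L1.jFun_surjective c)

theorem zPt_zero : zPt 0 = UpperHalfPlane.ρ := by
  simp [zPt]

theorem zPt_1728 : zPt 1728 = UpperHalfPlane.I := by
  simp [zPt]

theorem jFun_zPt (c : ℂ) : X0L1.jFun (zPt c) = c := by
  unfold zPt
  split_ifs with h0 h1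
  · rw [h0]; exact X0L1.jFun_ρ
  · rw [h1]; exact X0L1.jFun_I
  · exact Classical.choose_spec (X0L1.jFun_surjective c)

/-- every point of `ℍ` is a translate of the chosen point above its `j`-value -/
theorem exists_smul_zPt (z : ℍ) : ∃ γ : SL(2, ℤ), γ • zPt (X0L1.jFun z) = z :=
  X0L1.exists_smul_eq_of_jFun_eq (jFun_zPt (X0L1.jFun z))

/-- Taylor expansion at `z₀` on `B N`, as a power series. -/
noncomputable def tayB (N : ℕ) (z₀ : ℍ) : B N →ₐ[ℂ] PowerSeries ℂ where
  toFun h := tay z₀ (h : ℍ → ℂ)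
  map_one' := by
    have h1 : ((1 : B N) : ℍ → ℂ) = fun _ => (1 : ℂ) := rfl
    rw [h1, tay_const]; rfl
  map_mul' a b := by
    have h1 : ((a * b : B N) : ℍ → ℂ) = (a : ℍ → ℂ) * (b : ℍ → ℂ) := rfl
    rw [h1, tay_mul z₀ a.2.mdiff b.2.mdiff]
  map_zero' := by
    have h1 : ((0 : B N) : ℍ → ℂ) = fun _ => (0 : ℂ) := rfl
    rw [h1, tay_const, map_zero]
  map_add' a b := by
    have h1 : ((a + b : B N) : ℍ → ℂ) = (a : ℍ → ℂ) + (b : ℍ → ℂ) := rfl
    rw [h1, tay_add z₀ a.2.mdiff b.2.mdiff]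
  commutes' c := by
    have h1 : ((algebraMap ℂ (B N) c : B N) : ℍ → ℂ) = fun _ => c := rfl
    rw [h1, tay_const]; rfl

theorem tayB_apply (N : ℕ) (z₀ : ℍ) (h : B N) : tayB N z₀ h = tay z₀ (h : ℍ → ℂ) := rfl

theorem tayB_injective (N : ℕ) (z₀ : ℍ) : Function.Injective (tayB N z₀) := by
  rw [injective_iff_map_eq_zero]
  intro h hh
  rw [tayB_apply, tay_eq_zero_iff z₀ h.2.mdiff] at hh
  exact Subtype.ext hh

/-- The expansion at the chosen point on `B N`, with values in Laurent series. -/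
noncomputable def tayBL (N : ℕ) (c : ℂ) : B N →ₐ[ℂ] LaurentSeries ℂ where
  toRingHom := (HahnSeries.ofPowerSeries ℤ ℂ).comp (tayB N (zPt c)).toRingHom
  commutes' r := by
    show HahnSeries.ofPowerSeries ℤ ℂ (tayB N (zPt c) (algebraMap ℂ (B N) r)) =
      HahnSeries.ofPowerSeries ℤ ℂ (algebraMap ℂ (PowerSeries ℂ) r)
    rw [(tayB N (zPt c)).commutes r]

theorem tayBL_apply (N : ℕ) (c : ℂ) (h : B N) :
    tayBL N c h = HahnSeries.ofPowerSeries ℤ ℂ (tay (zPt c) (h : ℍ → ℂ)) := rfl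

theorem tayBL_injective (N : ℕ) (c : ℂ) : Function.Injective (tayBL N c) := by
  intro a b hab
  rw [tayBL_apply, tayBL_apply] at hab
  exact tayB_injective N (zPt c) (HahnSeries.ofPowerSeries_injective hab)

/-- Taylor expansion at the chosen point above `c`, on the field of modular functions. -/
noncomputable def Tfin (N : ℕ) (c : ℂ) : Fld N →ₐ[ℂ] LaurentSeries ℂ :=
  IsFractionRing.liftAlgHom (g := tayBL N c) (tayBL_injective N c)

theorem Tfin_algebraMap (N : ℕ) (c : ℂ) (h : B N) :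
    Tfin N c (algebraMap (B N) (Fld N) h) =
      HahnSeries.ofPowerSeries ℤ ℂ (tay (zPt c) (h : ℍ → ℂ)) := by
  unfold Tfin
  rw [IsFractionRing.liftAlgHom_apply, IsFractionRing.lift_algebraMap]
  exact tayBL_apply N c h

/-- The stabilizer of the chosen point above `c`. -/
noncomputable def Gfin (c : ℂ) : Subgroup SL(2, ℤ) := MulAction.stabilizer SL(2, ℤ) (zPt c)

theorem mem_Gfin {c : ℂ} {g : SL(2, ℤ)} : g ∈ Gfin c ↔ g • zPt c = zPt c := Iff.rfl

/-- The rotation character at the chosen point above `c`. -/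
noncomputable def chiFin (c : ℂ) (g : SL(2, ℤ)) : ℂˣ :=
  Units.mk0 (rot g⁻¹ (zPt c)) (rot_ne_zero _ _)

theorem chiFin_mul (c : ℂ) {g g' : SL(2, ℤ)} (hg : g ∈ Gfin c) (hg' : g' ∈ Gfin c) :
    chiFin c (g * g') = chiFin c g * chiFin c g' := by
  have _hg'inv : g'⁻¹ • zPt c = zPt c := mem_Gfin.mp ((Gfin c).inv_mem hg')
  apply Units.ext
  have hginv : g⁻¹ • zPt c = zPt c := mem_Gfin.mp ((Gfin c).inv_mem hg)
  show rot (g * g')⁻¹ (zPt c) = rot g⁻¹ (zPt c) * rot g'⁻¹ (zPt c)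
  rw [mul_inv_rev, rot_mul _ _ _ hginv, mul_comm]

/-- The stabilizer acts on expansions by rescaling the disc coordinate. -/
theorem Tfin_rho (N : ℕ) (c : ℂ) {g : SL(2, ℤ)} (hg : g ∈ Gfin c) (x : Fld N) (n : ℤ) :
    (Tfin N c (rho N g x)).coeff n = ((chiFin c g : ℂˣ) : ℂ) ^ n * (Tfin N c x).coeff n := by
  have hginv : g⁻¹ • zPt c = zPt c := mem_Gfin.mp ((Gfin c).inv_mem hg)
  refine coeff_eq_of_rescale (A := B N) (f := (Tfin N c).toRingHom)
    (g := ((Tfin N c).toRingHom).comp ((rho N g : Fld N ≃ₐ[ℂ] Fld N) : Fld N →+* Fld N))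
    (a := chiFin c g) (fun h => ?_) x n
  show Tfin N c (rho N g (algebraMap (B N) (Fld N) h)) =
    rescaleL (chiFin c g) (Tfin N c (algebraMap (B N) (Fld N) h))
  rw [rho_algebraMap, Tfin_algebraMap, Tfin_algebraMap, rescaleL_ofPowerSeries, coe_actB]
  congr 1
  exact tay_smul g⁻¹ (zPt c) hginv h.2.mdiff

end Fermat.Agent.X0Fld
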