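import Fermat.Agent.X0Fld.Points

/-!
# Local degrees of `j`, stabilizers and the image of the rotation characters (package FLD)
-/

set_option autoImplicit false

open UpperHalfPlane ModularForm CongruenceSubgroup
open scoped MatrixGroups Manifold

namespace Fermat.Agent.X0Fld


/-- The local degree of `j` at the chosen point above `c`. -/
noncomputable def dFin (c : ℂ) : ℕ := if c = 0 then 3 else if c = 1728 then 2 else 1

theorem dFin_pos (c : ℂ) : 0 < dFin c := by
  unfold dFin; split_ifs <;> norm_num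

theorem pointsOrder_mdiff_jFun_sub (c : ℂ) : MDiff (fun z => X0L1.jFun z - c) :=
  X0L1.mdifferentiable_jFun.sub mdifferentiable_const

theorem pointsOrder_order_tay_unit (z₀ : ℍ) (h : ℍ → ℂ) (h0 : h z₀ ≠ 0) :
    (tay z₀ h).order = 0 := by
  apply PowerSeries.order_zero_of_unit
  rw [PowerSeries.isUnit_iff_constantCoeff, ← PowerSeries.coeff_zero_eq_constantCoeff_apply,
    coeff_zero_tay]
  exact isUnit_iff_ne_zero.mpr h0

theorem pointsOrder_order_zero :
    (tay UpperHalfPlane.ρ (fun z => X0L1.jFun z - 0)).order = 3 := by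
  have hE : MDiff (⇑E₄) := ModularFormClass.holo E₄
  have h1 : (fun z => X0L1.jFun z - 0) * discriminant = ⇑E₄ * (⇑E₄ * ⇑E₄) := by
    funext z
    simp only [Pi.mul_apply, sub_zero]
    rw [X0L1.jFun_mul_discriminant]; ring
  have h2 : (tay UpperHalfPlane.ρ ((fun z => X0L1.jFun z - 0) * discriminant)).order
      = (tay UpperHalfPlane.ρ (⇑E₄ * (⇑E₄ * ⇑E₄))).order := by rw [h1]
  rw [tay_mul _ (pointsOrder_mdiff_jFun_sub 0) mdiff_discriminant, tay_mul _ hE (hE.mul hE),
    tay_mul _ hE hE, PowerSeries.order_mul, PowerSeries.order_mul, PowerSeries.order_mul,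
    pointsOrder_order_tay_unit _ _ (ModularForm.discriminant_ne_zero _),
    order_tay_eq_one _ hE X0L1.E₄_ρ (X0L1.deriv_E₄_ne_zero X0L1.E₄_ρ), add_zero] at h2
  rw [h2]; norm_num

theorem pointsOrder_order_1728 :
    (tay UpperHalfPlane.I (fun z => X0L1.jFun z - 1728)).order = 2 := by
  have hE : MDiff (⇑E₆) := ModularFormClass.holo E₆
  have h1 : (fun z => X0L1.jFun z - 1728) * discriminant = ⇑E₆ * ⇑E₆ := by
    funext z
    simp only [Pi.mul_apply]
    rw [X0L1.jFun_sub_mul_discriminant]; ring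
  have h2 : (tay UpperHalfPlane.I ((fun z => X0L1.jFun z - 1728) * discriminant)).order
      = (tay UpperHalfPlane.I (⇑E₆ * ⇑E₆)).order := by rw [h1]
  rw [tay_mul _ (pointsOrder_mdiff_jFun_sub 1728) mdiff_discriminant,
    tay_mul _ hE hE, PowerSeries.order_mul, PowerSeries.order_mul,
    pointsOrder_order_tay_unit _ _ (ModularForm.discriminant_ne_zero _),
    order_tay_eq_one _ hE X0L1.E₆_I (X0L1.deriv_E₆_ne_zero X0L1.E₆_I), add_zero] at h2
  rw [h2]; norm_num

theorem order_tay_jFun_sub (c : ℂ) :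
    (tay (zPt c) (fun z => X0L1.jFun z - c)).order = (dFin c : ℕ∞) := by
  by_cases h0 : c = 0
  · subst h0
    rw [zPt_zero, pointsOrder_order_zero]; simp [dFin]
  by_cases h1 : c = 1728
  · subst h1
    rw [zPt_1728, pointsOrder_order_1728]; simp [dFin]
  have hd : dFin c = 1 := by simp [dFin, h0, h1]
  rw [hd, Nat.cast_one]
  apply order_tay_eq_one _ (pointsOrder_mdiff_jFun_sub c)
  · rw [jFun_zPt, sub_self]
  · have : (fun z => X0L1.jFun z - c) ∘ ofComplex = fun w => (X0L1.jFun ∘ ofComplex) w - c := rfl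
    rw [this, deriv_sub_const]
    exact X0L1.deriv_jFun_ne_zero (by rwa [jFun_zPt]) (by rwa [jFun_zPt])

theorem pointsOrder_order_ofPowerSeries (p : PowerSeries ℂ) (n : ℕ) (hp : p.order = (n : ℕ∞)) :
    (HahnSeries.ofPowerSeries ℤ ℂ p).order = (n : ℤ) := by
  obtain ⟨hc, hlt⟩ := PowerSeries.order_eq_nat.mp hp
  have hcn : (HahnSeries.ofPowerSeries ℤ ℂ p).coeff (n : ℤ) ≠ 0 := by
    rw [HahnSeries.ofPowerSeries_apply_coeff]; exact hc
  have hne : HahnSeries.ofPowerSeries ℤ ℂ p ≠ 0 := by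
    intro h; rw [h] at hcn; exact hcn rfl
  apply le_antisymm (HahnSeries.order_le_of_coeff_ne_zero hcn)
  rw [HahnSeries.le_order_iff_forall hne]
  intro j hj
  by_cases hj0 : 0 ≤ j
  · obtain ⟨m, rfl⟩ := Int.eq_ofNat_of_zero_le hj0
    rw [HahnSeries.ofPowerSeries_apply_coeff]
    exact hlt m (by exact_mod_cast hj)
  · rw [HahnSeries.ofPowerSeries_apply]
    apply HahnSeries.embDomain_of_notMem_range
    rintro ⟨m, hm⟩
    apply hj0
    rw [← hm]
    exact Int.natCast_nonneg m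

theorem order_Tfin_j_sub (N : ℕ) (c : ℂ) :
    (Tfin N c (jF N - algebraMap ℂ (Fld N) c)).order = (dFin c : ℤ) := by
  have h1 : jF N - algebraMap ℂ (Fld N) c
      = algebraMap (B N) (Fld N) (jB N - algebraMap ℂ (B N) c) := by
    rw [map_sub, ← IsScalarTower.algebraMap_apply]; rfl
  have h2 : ((jB N - algebraMap ℂ (B N) c : B N) : ℍ → ℂ) = fun z => X0L1.jFun z - c := rfl
  rw [h1, Tfin_algebraMap, h2]
  exact pointsOrder_order_ofPowerSeries _ _ (order_tay_jFun_sub c)


theorem pointsOrder_S_sq : ModularGroup.S ^ 2 = (-1 : SL(2, ℤ)) := by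
  decide

theorem pointsOrder_ST_sq : (ModularGroup.S * ModularGroup.T) ^ 2 = ModularGroup.T⁻¹ * ModularGroup.S := by
  decide

theorem pointsOrder_ST_cube : (ModularGroup.S * ModularGroup.T) ^ 3 = (-1 : SL(2, ℤ)) := by
  decide

theorem Gfin_zero : Gfin 0 = Subgroup.zpowers (ModularGroup.S * ModularGroup.T) := by
  apply le_antisymm
  · intro g hg
    rw [mem_Gfin, zPt_zero, ModularGroup.stabilizer_ρ] at hg
    simp only [Finset.mem_insert, Finset.mem_singleton] at hg
    rw [Subgroup.mem_zpowers_iff]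
    rcases hg with rfl | rfl | rfl | rfl | rfl | rfl
    · exact ⟨0, by simp⟩
    · exact ⟨3, by rw [← pointsOrder_ST_cube]; rfl⟩
    · exact ⟨1, by simp⟩
    · refine ⟨4, ?_⟩
      have : (ModularGroup.S * ModularGroup.T) ^ (4 : ℤ) = (ModularGroup.S * ModularGroup.T) ^ 3 * (ModularGroup.S * ModularGroup.T) := by
        rw [← pow_succ]; rfl
      rw [this, pointsOrder_ST_cube]; simp
    · exact ⟨2, by rw [← pointsOrder_ST_sq]; rfl⟩
    · refine ⟨5, ?_⟩
      have : (ModularGroup.S * ModularGroup.T) ^ (5 : ℤ) = (ModularGroup.S * ModularGroup.T) ^ 3 * (ModularGroup.S * ModularGroup.T) ^ 2 := by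
        rw [← pow_add]; rfl
      rw [this, pointsOrder_ST_cube, pointsOrder_ST_sq]; simp
  · rw [Subgroup.zpowers_le, mem_Gfin, zPt_zero, ModularGroup.stabilizer_ρ]
    simp

theorem Gfin_1728 : Gfin 1728 = Subgroup.zpowers ModularGroup.S := by
  apply le_antisymm
  · intro g hg
    rw [mem_Gfin, zPt_1728, ModularGroup.stabilizer_I] at hg
    simp only [Finset.mem_insert, Finset.mem_singleton] at hg
    rw [Subgroup.mem_zpowers_iff]
    rcases hg with rfl | rfl | rfl | rfl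
    · exact ⟨0, by simp⟩
    · exact ⟨2, by rw [← pointsOrder_S_sq]; rfl⟩
    · exact ⟨1, by simp⟩
    · refine ⟨3, ?_⟩
      have : (ModularGroup.S) ^ (3 : ℤ) = (ModularGroup.S) ^ 2 * (ModularGroup.S) := by
        rw [← pow_succ]; rfl
      rw [this, pointsOrder_S_sq]; simp
  · rw [Subgroup.zpowers_le, mem_Gfin, zPt_1728, ModularGroup.stabilizer_I]
    simp

theorem Gfin_generic {c : ℂ} (h0 : c ≠ 0) (h1 : c ≠ 1728) :
    Gfin c = Subgroup.zpowers (-1 : SL(2, ℤ)) := by
  apply le_antisymm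
  · intro g hg
    rw [mem_Gfin] at hg
    have := X0L1.eq_one_or_neg_one_of_smul_eq (zPt c) (by rwa [jFun_zPt]) (by rwa [jFun_zPt]) g hg
    rw [Subgroup.mem_zpowers_iff]
    rcases this with rfl | rfl
    · exact ⟨0, by simp⟩
    · exact ⟨1, by simp⟩
  · rw [Subgroup.zpowers_le, mem_Gfin, ModularGroup.SL_neg_smul, one_smul]

theorem pointsOrder_chiFin_one (c : ℂ) : chiFin c 1 = 1 := by
  have h := chiFin_mul c (one_mem (Gfin c)) (one_mem (Gfin c))
  rw [mul_one] at h
  exact mul_eq_left.mp h.symm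

/-- `chiFin c` as a group homomorphism on the stabilizer. -/
noncomputable def pointsOrderChiHom (c : ℂ) : ↥(Gfin c) →* ℂˣ where
  toFun g := chiFin c (g : SL(2, ℤ))
  map_one' := pointsOrder_chiFin_one c
  map_mul' g g' := chiFin_mul c g.2 g'.2

theorem pointsOrderChiHom_apply (c : ℂ) (g : ↥(Gfin c)) :
    pointsOrderChiHom c g = chiFin c (g : SL(2, ℤ)) := rfl

theorem pointsOrder_chiFin_pow (c : ℂ) {g : SL(2, ℤ)} (hg : g ∈ Gfin c) (n : ℕ) :
    chiFin c (g ^ n) = chiFin c g ^ n := by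
  have h := map_pow (pointsOrderChiHom c) ⟨g, hg⟩ n
  rw [pointsOrderChiHom_apply, pointsOrderChiHom_apply, Subgroup.coe_pow] at h
  exact h

theorem pointsOrder_chiFin_zpow (c : ℂ) {g : SL(2, ℤ)} (hg : g ∈ Gfin c) (n : ℤ) :
    chiFin c (g ^ n) = chiFin c g ^ n := by
  have h := map_zpow (pointsOrderChiHom c) ⟨g, hg⟩ n
  rw [pointsOrderChiHom_apply, pointsOrderChiHom_apply, Subgroup.coe_zpow] at h
  exact h

theorem pointsOrder_neg_one_mem (c : ℂ) : (-1 : SL(2, ℤ)) ∈ Gfin c := by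
  rw [mem_Gfin, ModularGroup.SL_neg_smul, one_smul]

theorem pointsOrder_chiFin_eq_one_iff (c : ℂ) {g : SL(2, ℤ)} (hg : g ∈ Gfin c) :
    chiFin c g = 1 ↔ g = 1 ∨ g = -1 := by
  have hg' : g⁻¹ • zPt c = zPt c := mem_Gfin.mp (inv_mem hg)
  have hneg : (-1 : SL(2, ℤ))⁻¹ = -1 := by decide
  rw [chiFin, Units.ext_iff, Units.val_mk0, Units.val_one, rot_eq_one_iff _ _ hg', inv_eq_one,
    inv_eq_iff_eq_inv, hneg]

theorem pointsOrder_chiFin_neg_one (c : ℂ) : chiFin c (-1) = 1 :=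
  (pointsOrder_chiFin_eq_one_iff c (pointsOrder_neg_one_mem c)).mpr (Or.inr rfl)

theorem pointsOrder_image_eq (c : ℂ) (g₀ : SL(2, ℤ)) (h : Gfin c = Subgroup.zpowers g₀) :
    (chiFin c) '' (Gfin c : Set SL(2, ℤ)) = (Subgroup.zpowers (chiFin c g₀) : Set ℂˣ) := by
  have hg₀ : g₀ ∈ Gfin c := by rw [h]; exact Subgroup.mem_zpowers g₀
  ext x
  simp only [Set.mem_image, SetLike.mem_coe]
  constructor
  · rintro ⟨g, hg, rfl⟩
    rw [h, Subgroup.mem_zpowers_iff] at hg
    obtain ⟨n, rfl⟩ := hg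
    rw [pointsOrder_chiFin_zpow c hg₀]
    exact Subgroup.zpow_mem_zpowers _ n
  · intro hx
    rw [Subgroup.mem_zpowers_iff] at hx
    obtain ⟨n, rfl⟩ := hx
    exact ⟨g₀ ^ n, zpow_mem hg₀ n, pointsOrder_chiFin_zpow c hg₀ n⟩

theorem pointsOrder_card_eq (c : ℂ) (g₀ : SL(2, ℤ)) (h : Gfin c = Subgroup.zpowers g₀) :
    Nat.card ↥((chiFin c) '' (Gfin c : Set SL(2, ℤ))) = orderOf (chiFin c g₀) := by
  rw [pointsOrder_image_eq c g₀ h]
  exact Nat.card_zpowers _

theorem card_chiFin (c : ℂ) :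
    Nat.card ↥((chiFin c) '' (Gfin c : Set SL(2, ℤ))) = dFin c := by
  by_cases h0 : c = 0
  · subst h0
    have hd : dFin 0 = 3 := by simp [dFin]
    have hm : ModularGroup.S * ModularGroup.T ∈ Gfin 0 := by
      rw [Gfin_zero]; exact Subgroup.mem_zpowers _
    rw [pointsOrder_card_eq 0 _ Gfin_zero, hd]
    have : Fact (Nat.Prime 3) := ⟨by norm_num⟩
    apply orderOf_eq_prime
    · rw [← pointsOrder_chiFin_pow 0 hm, pointsOrder_ST_cube, pointsOrder_chiFin_neg_one]
    · rw [Ne, pointsOrder_chiFin_eq_one_iff 0 hm]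
      decide
  by_cases h1 : c = 1728
  · subst h1
    have hd : dFin 1728 = 2 := by simp [dFin]
    have hm : ModularGroup.S ∈ Gfin 1728 := by
      rw [Gfin_1728]; exact Subgroup.mem_zpowers _
    rw [pointsOrder_card_eq 1728 _ Gfin_1728, hd]
    have : Fact (Nat.Prime 2) := ⟨by norm_num⟩
    apply orderOf_eq_prime
    · rw [← pointsOrder_chiFin_pow 1728 hm, pointsOrder_S_sq, pointsOrder_chiFin_neg_one]
    · rw [Ne, pointsOrder_chiFin_eq_one_iff 1728 hm]
      decide
  have hd : dFin c = 1 := by simp [dFin, h0, h1]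
  rw [pointsOrder_card_eq c _ (Gfin_generic h0 h1), hd, pointsOrder_chiFin_neg_one, orderOf_one]

end Fermat.Agent.X0Fld
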