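import Mathlib

/-!
# Taylor expansion of a holomorphic function on `ℍ` in the disc coordinate at a point
(package FLD, pure complex analysis)

For `z₀ ∈ ℍ` the map `w ↦ (z₀ - conj z₀ * w) / (1 - w)` sends the unit disc onto `ℍ` and `0` to
`z₀`; its inverse is `z ↦ (z - z₀) / (z - conj z₀)`.  `tay z₀ h` is the Taylor series at `w = 0`
of `h` read in this coordinate.  An element `g ∈ SL(2,ℤ)` fixing `z₀` acts on the coordinate by
the rotation `w ↦ rot g z₀ * w`.
-/

set_option autoImplicit false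

open UpperHalfPlane
open scoped MatrixGroups Manifold ComplexConjugate

namespace Fermat.Agent.X0Fld

/-- The disc chart at `z₀`. -/
noncomputable def discMap (z₀ : ℍ) (w : ℂ) : ℂ := ((z₀ : ℂ) - conj (z₀ : ℂ) * w) / (1 - w)

/-- `h` read in the disc coordinate at `z₀`. -/
noncomputable def loc (z₀ : ℍ) (h : ℍ → ℂ) (w : ℂ) : ℂ := h (ofComplex (discMap z₀ w))

/-- The Taylor series of `h` at `z₀` in the disc coordinate. -/
noncomputable def tay (z₀ : ℍ) (h : ℍ → ℂ) : PowerSeries ℂ :=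
  PowerSeries.mk fun n => ((n.factorial : ℂ))⁻¹ * iteratedDeriv n (loc z₀ h) 0

theorem discMap_zero (z₀ : ℍ) : discMap z₀ 0 = (z₀ : ℂ) := by
  simp [discMap]

theorem taylor_im_discMap_eq (z₀ : ℍ) (w : ℂ) :
    (discMap z₀ w).im = z₀.im * (1 - Complex.normSq w) / Complex.normSq (1 - w) := by
  rw [discMap, Complex.div_im, ← sub_div]
  congr 1
  simp only [Complex.sub_im, Complex.sub_re, Complex.mul_im, Complex.mul_re, Complex.conj_re,
    Complex.conj_im, Complex.one_re, Complex.one_im, Complex.normSq_apply, UpperHalfPlane.coe_im]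
  ring

theorem im_discMap_pos (z₀ : ℍ) {w : ℂ} (hw : ‖w‖ < 1) : 0 < (discMap z₀ w).im := by
  rw [taylor_im_discMap_eq]
  have h1 : Complex.normSq w < 1 := by
    rw [Complex.normSq_eq_norm_sq]
    nlinarith [norm_nonneg w]
  have h2 : 0 < Complex.normSq (1 - w) := by
    rw [Complex.normSq_pos, sub_ne_zero]
    rintro rfl
    simp at hw
  have := z₀.im_pos
  positivity

theorem taylor_analyticAt_discMap (z₀ : ℍ) : AnalyticAt ℂ (discMap z₀) 0 := by
  unfold discMap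
  refine AnalyticAt.div (by fun_prop) (by fun_prop) (by simp)

theorem taylor_deriv_discMap (z₀ : ℍ) : deriv (discMap z₀) 0 = (z₀ : ℂ) - conj (z₀ : ℂ) := by
  have h1 : HasDerivAt (fun w : ℂ => (z₀ : ℂ) - conj (z₀ : ℂ) * w) (-(conj (z₀ : ℂ))) 0 := by
    simpa using ((hasDerivAt_id (0 : ℂ)).const_mul (conj (z₀ : ℂ))).const_sub (z₀ : ℂ)
  have h2 : HasDerivAt (fun w : ℂ => 1 - w) (-1) 0 := by
    simpa using (hasDerivAt_id (0 : ℂ)).const_sub 1
  have := h1.div h2 (by simp)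
  rw [show discMap z₀ = (fun w : ℂ => (z₀ : ℂ) - conj (z₀ : ℂ) * w) / (fun w : ℂ => 1 - w) from rfl,
    this.deriv]
  simp
  ring

theorem taylor_deriv_discMap_ne_zero (z₀ : ℍ) : deriv (discMap z₀) 0 ≠ 0 := by
  rw [taylor_deriv_discMap]
  intro h
  have := congrArg Complex.im h
  simp at this
  have := z₀.im_pos
  linarith

theorem taylor_analyticAt_comp_ofComplex {h : ℍ → ℂ} (hh : MDiff h) (z₀ : ℍ) :
    AnalyticAt ℂ (h ∘ ofComplex) (z₀ : ℂ) := by
  rw [UpperHalfPlane.mdifferentiable_iff] at hh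
  exact hh.analyticAt (isOpen_upperHalfPlaneSet.mem_nhds z₀.im_pos)

theorem taylor_loc_eq_comp (z₀ : ℍ) (h : ℍ → ℂ) : loc z₀ h = (h ∘ ofComplex) ∘ discMap z₀ := rfl

theorem analyticAt_loc (z₀ : ℍ) {h : ℍ → ℂ} (hh : MDiff h) : AnalyticAt ℂ (loc z₀ h) 0 := by
  rw [taylor_loc_eq_comp]
  refine AnalyticAt.comp ?_ (taylor_analyticAt_discMap z₀)
  rw [discMap_zero]
  exact taylor_analyticAt_comp_ofComplex hh z₀

theorem taylor_coeff_tay (z₀ : ℍ) (h : ℍ → ℂ) (n : ℕ) :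
    (tay z₀ h).coeff n = ((n.factorial : ℂ))⁻¹ * iteratedDeriv n (loc z₀ h) 0 := by
  simp [tay]

theorem coeff_zero_tay (z₀ : ℍ) (h : ℍ → ℂ) : (tay z₀ h).coeff 0 = h z₀ := by
  simp [taylor_coeff_tay, loc, discMap_zero]

theorem tay_const (z₀ : ℍ) (c : ℂ) : tay z₀ (fun _ => c) = PowerSeries.C c := by
  ext m
  have h1 : loc z₀ (fun _ => c) = fun _ => c := rfl
  have h2 : iteratedDeriv m (fun _ : ℂ => c) 0 = if m = 0 then c else 0 := by
    simpa [ite_apply] using! iteratedDeriv_const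
  rw [taylor_coeff_tay, h1, h2, PowerSeries.coeff_C]
  split_ifs with hm
  · simp [hm]
  · simp

theorem tay_add (z₀ : ℍ) {h₁ h₂ : ℍ → ℂ} (H₁ : MDiff h₁) (H₂ : MDiff h₂) :
    tay z₀ (h₁ + h₂) = tay z₀ h₁ + tay z₀ h₂ := by
  ext m
  have h1 : loc z₀ (h₁ + h₂) = loc z₀ h₁ + loc z₀ h₂ := rfl
  simp [taylor_coeff_tay, h1,
    iteratedDeriv_add (analyticAt_loc z₀ H₁).contDiffAt (analyticAt_loc z₀ H₂).contDiffAt, mul_add]

theorem tay_mul (z₀ : ℍ) {h₁ h₂ : ℍ → ℂ} (H₁ : MDiff h₁) (H₂ : MDiff h₂) :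
    tay z₀ (h₁ * h₂) = tay z₀ h₁ * tay z₀ h₂ := by
  ext m
  have h1 : loc z₀ (h₁ * h₂) = loc z₀ h₁ * loc z₀ h₂ := rfl
  simp only [taylor_coeff_tay, h1,
    iteratedDeriv_mul (analyticAt_loc z₀ H₁).contDiffAt (analyticAt_loc z₀ H₂).contDiffAt,
    Finset.mul_sum, PowerSeries.coeff_mul,
    Finset.Nat.sum_antidiagonal_eq_sum_range_succ_mk, Nat.succ_eq_add_one]
  refine Finset.sum_congr rfl fun i hi ↦ ?_
  rw [Nat.cast_choose _ (by grind)]
  field_simp [Nat.factorial_ne_zero]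

/-- The order of the Taylor series is the analytic order of `loc z₀ h` at `0`. -/
theorem taylor_order_tay_eq_analyticOrderAt_loc (z₀ : ℍ) {h : ℍ → ℂ} (H : MDiff h) :
    (tay z₀ h).order = analyticOrderAt (loc z₀ h) 0 := by
  have hA := analyticAt_loc z₀ H
  have hfac : ∀ n : ℕ, ((n.factorial : ℂ))⁻¹ ≠ 0 := fun n =>
    inv_ne_zero (Nat.cast_ne_zero.mpr n.factorial_ne_zero)
  by_cases hO : analyticOrderAt (loc z₀ h) 0 = ⊤
  · rw [hO, PowerSeries.order_eq_top]
    ext m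
    have : ((m + 1 : ℕ) : ℕ∞) ≤ analyticOrderAt (loc z₀ h) 0 := by rw [hO]; exact le_top
    rw [natCast_le_analyticOrderAt_iff_iteratedDeriv_eq_zero hA] at this
    rw [taylor_coeff_tay, this m (Nat.lt_succ_self m)]
    simp
  · obtain ⟨n, hn⟩ := ENat.ne_top_iff_exists.mp hO
    rw [← hn]
    have hO := (analyticOrderAt_eq_nat_iff_iteratedDeriv_eq_zero hA).mp hn.symm
    rw [PowerSeries.order_eq_nat]
    refine ⟨?_, fun i hi => ?_⟩
    · rw [taylor_coeff_tay]
      exact mul_ne_zero (hfac n) hO.2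
    · rw [taylor_coeff_tay, hO.1 i hi, mul_zero]

/-- The order of the Taylor series is the order of vanishing. -/
theorem order_tay (z₀ : ℍ) {h : ℍ → ℂ} (H : MDiff h) :
    (tay z₀ h).order = analyticOrderAt (h ∘ ofComplex) (z₀ : ℂ) := by
  rw [taylor_order_tay_eq_analyticOrderAt_loc z₀ H, taylor_loc_eq_comp,
    analyticOrderAt_comp_of_deriv_ne_zero (taylor_analyticAt_discMap z₀)
      (taylor_deriv_discMap_ne_zero z₀), discMap_zero]

theorem tay_eq_zero_iff (z₀ : ℍ) {h : ℍ → ℂ} (H : MDiff h) : tay z₀ h = 0 ↔ h = 0 := by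
  constructor
  · intro h0
    have h1 : analyticOrderAt (h ∘ ofComplex) (z₀ : ℂ) = ⊤ := by
      rw [← order_tay z₀ H, h0, PowerSeries.order_zero]
    rw [analyticOrderAt_eq_top] at h1
    have hA : AnalyticOnNhd ℂ (h ∘ ofComplex) {z : ℂ | 0 < z.im} :=
      (UpperHalfPlane.mdifferentiable_iff.mp H).analyticOnNhd isOpen_upperHalfPlaneSet
    have hpre : IsPreconnected {z : ℂ | 0 < z.im} :=
      (Complex.isConnected_of_upperHalfPlane subset_rfl (by grind)).isPreconnected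
    have key := hA.eqOn_zero_of_preconnected_of_eventuallyEq_zero hpre z₀.im_pos h1
    ext w
    have := key w.im_pos
    simpa [Function.comp_apply, ofComplex_apply] using this
  · rintro rfl
    have : (0 : ℍ → ℂ) = fun _ => (0 : ℂ) := rfl
    rw [this, tay_const]
    simp

/-- A simple zero gives order one. -/
theorem order_tay_eq_one (z₀ : ℍ) {h : ℍ → ℂ} (H : MDiff h) (h0 : h z₀ = 0)
    (h1 : deriv (h ∘ ofComplex) (z₀ : ℂ) ≠ 0) : (tay z₀ h).order = 1 := by
  rw [order_tay z₀ H]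
  exact (taylor_analyticAt_comp_ofComplex H z₀).analyticOrderAt_eq_one_of_zero_deriv_ne_zero
    (by simpa [Function.comp_apply, ofComplex_apply] using h0) h1

end Fermat.Agent.X0Fld
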